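import Fermat.Agent.PrimeRace.Char
import Fermat.Agent.HeckeBS.GammaBounds
import Mathlib.Analysis.Complex.RemovableSingularity
import Mathlib.Analysis.SpecificLimits.Normed
import Mathlib.Analysis.SpecialFunctions.Gamma.BohrMollerup

/-!
# The completed `L (s, χ₄)` as a function of `(s - 1/2)²`

`2 ^ w Λ (1/2 + w)` is entire and even, so a function of `z = w²`, entire and `exp (o |z|)`.
Along the positive axis it grows faster than every `exp (A √z)`.
-/

set_option autoImplicit false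

noncomputable section

namespace FA.PrimeRaceLittlewood

open Complex Filter Topology
open FA.OrderTheta (chiFourC dft_chiFourC)
open FA.PrimeRace (lChi chiFourC_ne_one chiFourC_odd)
open DirichletCharacter (LFunction completedLFunction gammaFactor)

/-- `2 ^ w Λ (1/2 + w)`. -/
def xiChi (w : ℂ) : ℂ :=
  cexp (w * (Real.log 2 : ℂ)) * completedLFunction chiFourC (1 / 2 + w)

/-- `xiChi` as a function of `w ^ 2`. -/
def raceF (z : ℂ) : ℂ := xiChi (z ^ (1 / 2 : ℂ))

theorem differentiable_xiChi : Differentiable ℂ xiChi := by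
  have h := DirichletCharacter.differentiable_completedLFunction chiFourC_ne_one
  unfold xiChi
  fun_prop

theorem completed_one_sub (s : ℂ) : completedLFunction chiFourC (1 - s) =
    2 * (4 : ℂ) ^ (s - 1) * completedLFunction chiFourC s := by
  have hΦ : Function.Odd (chiFourC : ZMod 4 → ℂ) := chiFourC_odd.to_fun
  rw [completedLFunction, ZMod.completedLFunction_one_sub_odd hΦ,
    show ZMod.dft (chiFourC : ZMod 4 → ℂ) = fun k => -(2 * Complex.I) * chiFourC k from
      funext fun k => dft_chiFourC k, ZMod.completedLFunction_const_mul]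
  rw [completedLFunction]
  have hI : Complex.I * Complex.I = -1 := Complex.I_mul_I
  push_cast
  linear_combination (-2 * (4 : ℂ) ^ (s - 1) * ZMod.completedLFunction (chiFourC : ZMod 4 → ℂ) s)
    * hI

theorem xiChi_neg (w : ℂ) : xiChi (-w) = xiChi w := by
  have h4 : (4 : ℂ) ^ ((1 / 2 + w) - 1) * 2 =
      cexp (w * (Real.log 2 : ℂ)) * cexp (w * (Real.log 2 : ℂ)) := by
    have e2 : (2 : ℂ) = cexp (Real.log 2 : ℂ) := by
      rw [← ofReal_exp, Real.exp_log two_pos, ofReal_ofNat]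
    have e4 : Complex.log (4 : ℂ) = ((2 * Real.log 2 : ℝ) : ℂ) := by
      rw [show (4 : ℂ) = ((4 : ℝ) : ℂ) by norm_num, ← ofReal_log (by norm_num),
        show (4 : ℝ) = 2 ^ 2 by norm_num, Real.log_pow]
      norm_num
    rw [cpow_def_of_ne_zero (by norm_num), e4]
    nth_rw 2 [e2]
    rw [← Complex.exp_add, ← Complex.exp_add]
    push_cast
    ring_nf
  rw [xiChi, xiChi, show (1 : ℂ) / 2 + -w = 1 - (1 / 2 + w) by ring, completed_one_sub,
    neg_mul, Complex.exp_neg]
  have he := Complex.exp_ne_zero (w * (Real.log 2 : ℂ))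
  generalize completedLFunction chiFourC (1 / 2 + w) = L
  generalize (4 : ℂ) ^ ((1 / 2 + w) - 1) = Q at h4 ⊢
  field_simp
  linear_combination L * h4

theorem xiChi_eq_of_sq {a b : ℂ} (h : a ^ 2 = b ^ 2) : xiChi a = xiChi b := by
  rcases sq_eq_sq_iff_eq_or_eq_neg.1 h with rfl | rfl
  · rfl
  · exact xiChi_neg b

theorem sqrt_sq (z : ℂ) : (z ^ (1 / 2 : ℂ)) ^ 2 = z := by
  rw [show (1 / 2 : ℂ) = ((2 : ℕ) : ℂ)⁻¹ by norm_num]
  exact Complex.cpow_nat_inv_pow z two_ne_zero

theorem norm_sqrt (z : ℂ) : ‖z ^ (1 / 2 : ℂ)‖ = Real.sqrt ‖z‖ := by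
  conv_rhs => rw [← sqrt_sq z, norm_pow, Real.sqrt_sq (norm_nonneg _)]

theorem raceF_sq (w : ℂ) : raceF (w ^ 2) = xiChi w := xiChi_eq_of_sq (sqrt_sq _)

theorem differentiableAt_raceF_of_ne {z₀ : ℂ} (h : z₀ ≠ 0) : DifferentiableAt ℂ raceF z₀ := by
  obtain ⟨c, hc⟩ : ∃ c : ℂ, c = z₀ ^ (1 / 2 : ℂ) := ⟨_, rfl⟩
  have he : raceF =ᶠ[𝓝 z₀] fun z => xiChi (c * (z / z₀) ^ (1 / 2 : ℂ)) :=
    Eventually.of_forall fun z => xiChi_eq_of_sq (by
      rw [sqrt_sq, mul_pow, sqrt_sq, hc, sqrt_sq]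
      field_simp)
  refine DifferentiableAt.congr_of_eventuallyEq ?_ he
  have h1 : DifferentiableAt ℂ (fun z : ℂ => (z / z₀) ^ (1 / 2 : ℂ)) z₀ :=
    (differentiableAt_id.div_const z₀).cpow (differentiableAt_const _)
      (by simp [div_self h, one_mem_slitPlane])
  exact DifferentiableAt.fun_comp' (f := fun z : ℂ => c * (z / z₀) ^ (1 / 2 : ℂ)) z₀
    (differentiable_xiChi _) (h1.const_mul c)

theorem differentiable_raceF : Differentiable ℂ raceF := by
  intro z₀
  rcases eq_or_ne z₀ 0 with rfl | h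
  · refine (Complex.analyticAt_of_differentiable_on_punctured_nhds_of_continuousAt ?_
      ?_).differentiableAt
    · filter_upwards [self_mem_nhdsWithin] with z hz using differentiableAt_raceF_of_ne hz
    · have hc : ContinuousAt (fun z : ℂ => z ^ (1 / 2 : ℂ)) 0 :=
        Complex.continuousAt_cpow_const_of_re_pos (Or.inl le_rfl) (by norm_num)
      exact ContinuousAt.comp' (g := xiChi) differentiable_xiChi.continuous.continuousAt hc
  · exact differentiableAt_raceF_of_ne h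

theorem completed_eq {s : ℂ} (hs : -1 < s.re) :
    completedLFunction chiFourC s = Gammaℝ (s + 1) * lChi s := by
  have hne : gammaFactor chiFourC s ≠ 0 := by
    rw [chiFourC_odd.gammaFactor_def]
    exact Gammaℝ_ne_zero_of_re_pos (by simp; linarith)
  rw [lChi, DirichletCharacter.LFunction_eq_completed_div_gammaFactor chiFourC s
    (Or.inr (by norm_num)), chiFourC_odd.gammaFactor_def]
  rw [chiFourC_odd.gammaFactor_def] at hne
  field_simp

theorem norm_lChi_le {s : ℂ} (hs : 1 / 2 ≤ s.re) : ‖lChi s‖ ≤ 8 * ‖s‖ := by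
  rw [lChi, FA.Siegel.lfunction_eq chiFourC_ne_one (by linarith), norm_mul, mul_comm 8]
  refine mul_le_mul_of_nonneg_left ((FA.Siegel.norm_tail_le chiFourC_ne_one (by linarith)).trans ?_)
    (norm_nonneg _)
  rw [div_le_iff₀ (by linarith)]
  push_cast
  linarith

theorem exists_gamma_le {η : ℝ} (hη : 0 < η) :
    ∃ G : ℝ, ∀ x : ℝ, 3 / 4 ≤ x → Real.Gamma x ≤ Real.exp (η * x ^ 2 + G) := by
  obtain ⟨M, hM⟩ := eventually_atTop.1
    (Real.isLittleO_log_id_atTop.def (show (0 : ℝ) < η / 4 by positivity))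
  obtain ⟨X, hX⟩ : ∃ X, X = max (max M 2) 1 := ⟨_, rfl⟩
  have hX2 : 2 ≤ X := hX ▸ (le_max_right _ _).trans (le_max_left _ _)
  have hcont : ContinuousOn Real.Gamma (Set.Icc (3 / 4) X) := fun x hx =>
    (Real.differentiableAt_Gamma fun m h => by
      have := hx.1
      rw [h] at this
      linarith [(Nat.cast_nonneg m : (0 : ℝ) ≤ m)]).continuousAt.continuousWithinAt
  obtain ⟨B, hB⟩ := isCompact_Icc.exists_bound_of_continuousOn hcont
  refine ⟨max 0 B, fun x hx => ?_⟩
  rcases le_or_gt x X with h | h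
  · refine ((le_abs_self _).trans (hB x ⟨hx, h⟩)).trans ((le_max_right 0 B).trans ?_)
    have h1 : max 0 B ≤ Real.exp (max 0 B) := by linarith [Real.add_one_le_exp (max 0 B)]
    exact h1.trans (Real.exp_le_exp.2 (le_add_of_nonneg_left (by positivity)))
  obtain ⟨n, hn⟩ : ∃ n : ℕ, n = ⌈x⌉₊ := ⟨_, rfl⟩
  have hxn : x ≤ n := hn ▸ Nat.le_ceil x
  have hnx : (n : ℝ) ≤ 2 * x := by
    have := Nat.ceil_lt_add_one (show 0 ≤ x by linarith)
    rw [← hn] at this
    linarith
  have hn0 : (0 : ℝ) < n := by linarith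
  have hMn : M ≤ n := by linarith [hX ▸ (le_max_left M 2).trans (le_max_left _ _)]
  have hlog := hM n hMn
  rw [Real.norm_of_nonneg (Real.log_nonneg (by linarith)), id,
    Real.norm_of_nonneg hn0.le] at hlog
  calc Real.Gamma x ≤ Real.Gamma ((n : ℝ) + 1) :=
        Real.Gamma_strictMonoOn_Ici.monotoneOn (show (2 : ℝ) ≤ x by linarith)
          (show (2 : ℝ) ≤ (n : ℝ) + 1 by linarith) (by linarith)
    _ = (n.factorial : ℝ) := Real.Gamma_nat_eq_factorial n
    _ ≤ (n : ℝ) ^ n := by exact_mod_cast Nat.factorial_le_pow n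
    _ = Real.exp (n * Real.log n) := by rw [mul_comm, Real.exp_mul, Real.exp_log hn0,
        Real.rpow_natCast]
    _ ≤ Real.exp (η * x ^ 2 + max 0 B) := by
        refine Real.exp_le_exp.2 ?_
        have h1 : (n : ℝ) * Real.log n ≤ η / 4 * (n * n) := by
          rw [mul_comm (η / 4), mul_assoc, mul_comm _ (η / 4)]
          exact mul_le_mul_of_nonneg_left hlog hn0.le
        nlinarith [le_max_left 0 B, mul_le_mul hnx hnx hn0.le (by linarith : (0 : ℝ) ≤ 2 * x)]

theorem exists_norm_xiChi_le {η : ℝ} (hη : 0 < η) :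
    ∃ G : ℝ, ∀ w : ℂ, ‖xiChi w‖ ≤ Real.exp (η * ‖w‖ ^ 2 + G) := by
  obtain ⟨G, hG⟩ := exists_gamma_le hη
  obtain ⟨q, hq⟩ : ∃ q, q = η / 4 := ⟨_, rfl⟩
  have hq0 : 0 < q := hq ▸ by positivity
  obtain ⟨K, hK⟩ : ∃ K, K = G + 2 * η + 8 + 81 / q := ⟨_, rfl⟩
  refine ⟨K, fun w => ?_⟩
  wlog hw : 0 ≤ w.re generalizing w
  · have := this (-w) (by simp; linarith)
    rwa [xiChi_neg, norm_neg] at this
  obtain ⟨s, hs⟩ : ∃ s : ℂ, s = 1 / 2 + w := ⟨_, rfl⟩
  have hsre : s.re = 1 / 2 + w.re := by simp [hs]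
  obtain ⟨r, hr⟩ : ∃ r, r = ‖w‖ := ⟨_, rfl⟩
  have hr0 : 0 ≤ r := hr ▸ norm_nonneg w
  have hre : w.re ≤ r := hr ▸ Complex.re_le_norm w
  have hsn : ‖s‖ ≤ 1 + r := by
    rw [hs, hr]
    refine (norm_add_le _ _).trans (add_le_add ?_ le_rfl)
    norm_num
  rw [xiChi, ← hs, completed_eq (by linarith), ← hr, norm_mul, norm_mul, Complex.norm_exp,
    re_mul_ofReal]
  have hlog2 : Real.log 2 ≤ 1 := by linarith [Real.log_two_lt_d9]
  have e1 : Real.exp (w.re * Real.log 2) ≤ Real.exp r := Real.exp_le_exp.2 (by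
    have := Real.log_nonneg (one_le_two : (1 : ℝ) ≤ 2)
    nlinarith)
  have e2 : ‖Gammaℝ (s + 1)‖ ≤ Real.exp (η * ((1 + 1 / 2 + r) / 2) ^ 2 + G) := by
    have hp : 0 < (s + 1).re := by simp; linarith
    refine (FA.HeckeBS.norm_Gammaℝ_le hp).trans ?_
    refine (mul_le_of_le_one_left (Real.Gamma_nonneg_of_nonneg (by positivity))
      (Real.rpow_le_one_of_one_le_of_nonpos (by linarith [Real.pi_gt_three])
        (by linarith))).trans ?_
    refine (hG _ (by simp; linarith)).trans (Real.exp_le_exp.2 ?_)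
    have : ((s + 1).re / 2) ^ 2 ≤ ((1 + 1 / 2 + r) / 2) ^ 2 := by
      refine pow_le_pow_left₀ (by positivity) ?_ 2
      simp
      linarith
    nlinarith
  have e3 : ‖lChi s‖ ≤ Real.exp (8 * (1 + r)) := by
    refine (norm_lChi_le (by linarith)).trans ?_
    linarith [Real.add_one_le_exp (8 * (1 + r))]
  refine (mul_le_mul e1 (mul_le_mul e2 e3 (norm_nonneg _) (Real.exp_pos _).le)
    (by positivity) (Real.exp_pos _).le).trans ?_
  rw [← Real.exp_add, ← Real.exp_add]
  refine Real.exp_le_exp.2 ?_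
  obtain ⟨d, hd⟩ : ∃ d, d = 1 / q := ⟨_, rfl⟩
  have h4 : 81 / q = 81 * d := by rw [hd]; ring
  have hd0 : 0 ≤ d := hd ▸ by positivity
  have hqd : q * d = 1 := by rw [hd]; field_simp
  have hu : 9 * r ≤ η / 4 * r ^ 2 + 81 * d := by
    have : 0 ≤ q * (r - 9 * d / 2) ^ 2 := by positivity
    nlinarith
  rw [hK, h4]
  nlinarith [mul_nonneg hη.le (sq_nonneg (r - 3 / 2))]

theorem exists_norm_raceF_le {η : ℝ} (hη : 0 < η) :
    ∃ G : ℝ, ∀ z : ℂ, ‖raceF z‖ ≤ Real.exp (η * ‖z‖ + G) := by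
  obtain ⟨G, hG⟩ := exists_norm_xiChi_le hη
  refine ⟨G, fun z => ?_⟩
  have := hG (z ^ (1 / 2 : ℂ))
  rwa [norm_sqrt, Real.sq_sqrt (norm_nonneg z)] at this

theorem raceF_zero_ne : raceF 0 ≠ 0 := by
  have h := raceF_sq 0
  rw [zero_pow two_ne_zero] at h
  rw [h, xiChi, completed_eq (by simp; norm_num), show (1 : ℂ) / 2 + 0 = ((1 / 2 : ℝ) : ℂ) by simp]
  exact mul_ne_zero (Complex.exp_ne_zero _) (mul_ne_zero
    (Gammaℝ_ne_zero_of_re_pos (by simp; norm_num))
    (FA.PrimeRace.lChi_real_ne_zero (by norm_num)))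

/-- **Faster than every exponential of `√z`.** -/
theorem exists_large_value (A : ℝ) :
    ∃ σ : ℝ, 1 ≤ σ ∧ Real.exp (A * σ) < ‖raceF ((σ : ℂ) ^ 2)‖ := by
  obtain ⟨a, ha⟩ : ∃ a, a = Real.exp (2 * |A| + Real.log 4 + 2) := ⟨_, rfl⟩
  have ha0 : 0 < a := ha ▸ Real.exp_pos _
  obtain ⟨n, hn, hn4, hnA⟩ :=
    (((FloorSemiring.tendsto_pow_div_factorial_atTop a).eventually_lt_const
      (show (0 : ℝ) < 1 / 2 by norm_num)).and
        ((eventually_ge_atTop 4).and (eventually_ge_atTop ⌈|A|⌉₊))).exists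
  obtain ⟨σ, hσ⟩ : ∃ σ : ℝ, σ = 2 * ((n : ℝ) + 1) - 3 / 2 := ⟨_, rfl⟩
  have hn4' : (4 : ℝ) ≤ n := by exact_mod_cast hn4
  refine ⟨σ, by linarith, ?_⟩
  obtain ⟨s, hs⟩ : ∃ s : ℝ, s = 1 / 2 + σ := ⟨_, rfl⟩
  have hs3 : 3 ≤ s := by linarith
  rw [raceF_sq, xiChi, show (1 : ℂ) / 2 + σ = (s : ℂ) by rw [hs]; push_cast; ring,
    completed_eq (by simp; linarith), norm_mul, norm_mul, Complex.norm_exp, re_mul_ofReal,
    ofReal_re]
  have hL : 1 / 2 ≤ ‖lChi s‖ := by
    have hre : 1 < (s : ℂ).re := by simp; linarith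
    rw [lChi, DirichletCharacter.LFunction_eq_LSeries chiFourC hre, LSeries,
      (DirichletCharacter.LSeriesSummable_of_one_lt_re chiFourC hre).tsum_eq_add_tsum_ite 1]
    obtain ⟨g, hg⟩ : ∃ g : ℕ → ℝ, g = fun n : ℕ => if n ≤ 1 then 0 else (n : ℝ) ^ (-(3 : ℝ)) :=
      ⟨_, rfl⟩
    have hgs : Summable g := hg ▸ Summable.of_nonneg_of_le
      (fun n => by split_ifs <;> positivity) (fun n => by split_ifs <;> [positivity; exact le_rfl])
      (Real.summable_nat_rpow.2 (show (-(3 : ℝ)) < -1 by norm_num))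
    have hg2 : ∀ N, ∑ i ∈ Finset.range N, g i ≤ 1 / 2 := by
      intro N
      suffices ∀ M, ∑ i ∈ Finset.range (M + 2), g i ≤ 1 / 2 - 1 / (2 * ((M : ℝ) + 1)) by
        refine le_trans ?_ ((this N).trans (sub_le_self _ (by positivity)))
        refine Finset.sum_le_sum_of_subset_of_nonneg (Finset.range_mono (by omega)) fun i _ _ => ?_
        rw [hg]
        simp only
        split_ifs <;> positivity
      intro M
      induction M with
      | zero => norm_num [hg, Finset.sum_range_succ]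
      | succ M ih =>
        rw [Finset.sum_range_succ]
        have hval : g (M + 2) ≤ 1 / (2 * ((M : ℝ) + 1)) - 1 / (2 * ((M : ℝ) + 2)) := by
          rw [hg]
          simp only [show ¬ M + 2 ≤ 1 by omega, if_false]
          rw [Real.rpow_neg (by positivity), show (3 : ℝ) = ((3 : ℕ) : ℝ) by norm_num,
            Real.rpow_natCast]
          push_cast
          field_simp
          nlinarith [(Nat.cast_nonneg M : (0 : ℝ) ≤ M)]
        push_cast
        rw [add_assoc (M : ℝ) 1 1, one_add_one_eq_two]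
        linarith
    have hle : ∀ n, ‖if n = 1 then (0 : ℂ) else
        LSeries.term (fun n => chiFourC n) (s : ℂ) n‖ ≤ g n := by
      intro n
      rw [hg]
      simp only
      rcases Nat.lt_or_ge n 2 with h | h
      · interval_cases n <;> simp
      · rw [if_neg (by omega : ¬ n = 1), if_neg (by omega : ¬ n ≤ 1), LSeries.norm_term_eq,
          if_neg (by omega : ¬ n = 0), ofReal_re, Real.rpow_neg (Nat.cast_nonneg n),
          div_eq_mul_inv]
        refine le_trans (mul_le_of_le_one_left (by positivity) (DirichletCharacter.norm_le_one _ _))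
          (inv_anti₀ (Real.rpow_pos_of_pos (by exact_mod_cast (by omega : 0 < n)) _)
            (Real.rpow_le_rpow_of_exponent_le (by exact_mod_cast (by omega : 1 ≤ n)) hs3))
    have h1 : LSeries.term (fun n => chiFourC n) (s : ℂ) 1 = 1 := by
      rw [LSeries.term_of_ne_zero one_ne_zero]
      simp
    rw [h1]
    have htail := (tsum_of_norm_bounded hgs.hasSum hle).trans
      (Real.tsum_le_of_sum_range_le (fun n => (norm_nonneg _).trans (hle n)) hg2)
    refine le_trans ?_ (norm_sub_norm_le (1 : ℂ) (-_) |>.trans (le_of_eq (by rw [sub_neg_eq_add])))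
    rw [norm_one, norm_neg]
    linarith
  have hG : (Real.pi ^ (n + 1))⁻¹ * n.factorial = ‖Gammaℝ ((s : ℂ) + 1)‖ := by
    have e : ((s : ℂ) + 1) / 2 = ((n : ℕ) : ℂ) + 1 := by
      rw [hs, hσ]; push_cast; ring
    rw [Gammaℝ_def, show -((s : ℂ) + 1) / 2 = -(((n + 1 : ℕ) : ℂ)) by
      push_cast; linear_combination -e, e, Complex.Gamma_nat_eq_factorial, cpow_neg,
      cpow_natCast, norm_mul, norm_inv, norm_pow, Complex.norm_natCast, Complex.norm_real,
      Real.norm_of_nonneg Real.pi_pos.le]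
  rw [← hG]
  have hfac : 2 * a ^ n < (n.factorial : ℝ) := by
    rw [div_lt_iff₀ (by positivity)] at hn
    linarith
  have hkey : Real.exp (A * σ) * Real.pi ^ (n + 1) ≤ a ^ n := by
    have hπ : Real.pi ≤ Real.exp (Real.log 4) := by
      rw [Real.exp_log four_pos]; linarith [Real.pi_lt_four]
    rw [ha, ← Real.exp_nat_mul]
    refine (mul_le_mul_of_nonneg_left (pow_le_pow_left₀ Real.pi_pos.le hπ (n + 1))
      (Real.exp_pos _).le).trans ?_
    rw [← Real.exp_nat_mul, ← Real.exp_add]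
    refine Real.exp_le_exp.2 ?_
    have h1 : A * σ ≤ |A| * (2 * n + 1) := by
      refine (mul_le_mul_of_nonneg_right (le_abs_self A) (by linarith)).trans ?_
      exact mul_le_mul_of_nonneg_left (by linarith) (abs_nonneg A)
    have h4 : Real.log 4 ≤ 2 := by
      rw [show (4 : ℝ) = 2 ^ 2 by norm_num, Real.log_pow]
      push_cast
      linarith [Real.log_two_lt_d9]
    have hA : |A| ≤ (n : ℝ) := Nat.ceil_le.1 hnA
    push_cast
    nlinarith
  have hE : 1 ≤ Real.exp (σ * Real.log 2) :=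
    Real.one_le_exp (mul_nonneg (by linarith) (Real.log_nonneg one_le_two))
  have hp : 0 < Real.pi ^ (n + 1) := by positivity
  calc Real.exp (A * σ) ≤ (Real.pi ^ (n + 1))⁻¹ * a ^ n := by
        rw [← div_eq_inv_mul, le_div_iff₀ hp]; exact hkey
    _ < (Real.pi ^ (n + 1))⁻¹ * n.factorial * (1 / 2) := by
        rw [mul_assoc]
        exact mul_lt_mul_of_pos_left (by linarith) (inv_pos.2 hp)
    _ ≤ (Real.pi ^ (n + 1))⁻¹ * n.factorial * ‖lChi s‖ :=
        mul_le_mul_of_nonneg_left hL (by positivity)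
    _ ≤ _ := le_mul_of_one_le_left (by positivity) hE

end FA.PrimeRaceLittlewood

end
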