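import Fermat.Agent.PrimeRaceLittlewood.Theta
import Fermat.Agent.PrimeRace.Count

/-!
# The race of `π` is not bounded on either side by a multiple of `√n / log n`

The series of `(π (n; 4, 3) - π (n; 4, 1)) log n` is `-d/dz ((S z + defect z) / z)` with
`S' = -(L'/L + ⋯)`; near the line `δ S (ρ + δ) → 0`, so the residues are those of the race of `θ`.
-/

set_option autoImplicit false

noncomputable section

namespace FA.PrimeRaceLittlewood

open Complex Filter Topology Set
open FA.MertensOmega (onLine onLine_re onLine_ne_zero)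
open FA.PrimeRace (lChi differentiable_lChi lChi_ne_zero_of_one_le_re squareReg raceReg
  differentiableAt_squareReg zeta₁_two_mul_ne_zero two_mul_sub_ne_zero countRace countSeries
  countDefect signCont weightedRace gapTail gapHead gapTail_nonneg lSeriesHasSum_gapTail
  differentiable_gapHead summable_of_gapTail differentiableAt_countDefect logMul_countRace
  term_countRace deriv_signCont norm_summatory_primeSign_le summatory_primeSign eventually_regular
  differentiableAt_raceReg summable_of_continuation)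
open scoped ComplexOrder

/-- The series of the weighted race converges on `re z > v`. -/
def WeightedSummable (v : ℝ) : Prop :=
  ∀ z : ℂ, v < z.re → Summable fun n : ℕ => (weightedRace n : ℂ) * (n : ℂ) ^ (-(z + 1))

variable {v : ℝ}

theorem of_weighted (hv : 1 / 2 ≤ v) (h : WeightedSummable v) {z : ℂ} (hz : v < z.re) :
    DifferentiableAt ℂ countSeries z ∧ DifferentiableAt ℂ signCont z ∧
      HasSum (fun n : ℕ => (weightedRace n : ℂ) * (n : ℂ) ^ (-(z + 1)))
        (-deriv countSeries z) := by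
  have hd : ∀ w : ℂ, v + 1 < w.re → LSeriesSummable (fun n => (countRace n : ℂ)) w := by
    intro w hw
    have h' := h (w - 1) (by simp; linarith)
    rw [sub_add_cancel] at h'
    have hw0 : w ≠ 0 := fun h0 => by simp [h0] at hw; linarith
    refine Summable.of_norm_bounded_eventually (g := fun n =>
      ‖(weightedRace n : ℂ) * (n : ℂ) ^ (-w)‖ / Real.log 2) (h'.norm.div_const _) ?_
    rw [Nat.cofinite_eq_atTop]
    filter_upwards [eventually_ge_atTop 2] with n hn
    have hl2 := Real.log_pos one_lt_two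
    have hln : Real.log 2 ≤ Real.log n := Real.log_le_log two_pos (by exact_mod_cast hn)
    rw [term_countRace hw0, norm_mul, norm_mul, le_div_iff₀ hl2, mul_right_comm]
    refine mul_le_mul_of_nonneg_right ?_ (norm_nonneg _)
    rw [Complex.norm_real, Complex.norm_real, weightedRace, norm_mul, Real.norm_eq_abs (Real.log _),
      abs_of_nonneg (Real.log_natCast_nonneg n)]
    exact mul_le_mul_of_nonneg_left hln (norm_nonneg _)
  have hre : v + 1 < (z + 1).re := by simp; linarith
  have habs : LSeries.abscissaOfAbsConv (fun n => (countRace n : ℂ)) < (z + 1).re :=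
    (LSeries.abscissaOfAbsConv_le_of_forall_lt_LSeriesSummable (x := v + 1) fun y hy =>
      hd y (by simpa using hy)).trans_lt (EReal.coe_lt_coe_iff.2 hre)
  have hder : HasDerivAt countSeries
      (-LSeries (fun n => (weightedRace n : ℂ)) (z + 1)) z := by
    have h' := LSeries_hasDerivAt habs
    rw [logMul_countRace] at h'
    exact h'.comp_add_const z 1
  refine ⟨hder.differentiableAt, (differentiableAt_id.mul hder.differentiableAt).sub
    (differentiableAt_countDefect (by linarith)), ?_⟩
  have hw0 : z + 1 ≠ 0 := fun h0 => by rw [h0] at hre; simp at hre; linarith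
  have hF : LSeries (fun n => (weightedRace n : ℂ)) (z + 1) =
      ∑' n : ℕ, (weightedRace n : ℂ) * (n : ℂ) ^ (-(z + 1)) := tsum_congr fun n => by
    rcases Nat.eq_zero_or_pos n with rfl | hn
    · rw [LSeries.term_zero, Nat.cast_zero (R := ℂ), Complex.zero_cpow (neg_ne_zero.2 hw0),
        mul_zero]
    · rw [LSeries.term_of_ne_zero hn.ne', Complex.cpow_neg (n : ℂ) (z + 1), div_eq_mul_inv]
  rw [hder.deriv, hF, neg_neg]
  exact (h z hz).hasSum

/-- The identity for the derivative, cleared of the zeros. -/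
theorem deriv_signCont_weighted (hv : 1 / 2 ≤ v) (h : WeightedSummable v) {z : ℂ}
    (hz : v < z.re) :
    lChi z * deriv signCont z = -(deriv lChi z + lChi z * (squareReg z + (2 * z - 1)⁻¹)) := by
  obtain ⟨U, hU⟩ : ∃ U : Set ℂ, U = {w | v < w.re} := ⟨_, rfl⟩
  have hUo : IsOpen U := hU ▸ isOpen_lt continuous_const continuous_re
  have hmem : ∀ {w}, w ∈ U → v < w.re := fun {w} hw => by rwa [hU] at hw
  have hD : DifferentiableOn ℂ (deriv signCont) U := DifferentiableOn.deriv
    (fun w hw => (of_weighted hv h (hmem hw)).2.1.differentiableWithinAt) hUo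
  obtain ⟨u, hu, hu1⟩ : ∃ u : ℂ, u ∈ U ∧ 1 < u.re :=
    ⟨((max v 1 + 1 : ℝ) : ℂ), by rw [hU]; show v < _; simp; linarith [le_max_left v 1], by simp⟩
  refine AnalyticOnNhd.eqOn_of_preconnected_of_eventuallyEq
    (f := fun w => lChi w * deriv signCont w)
    (g := fun w => -(deriv lChi w + lChi w * (squareReg w + (2 * w - 1)⁻¹)))
    ((differentiable_lChi.differentiableOn.mul hD).analyticOnNhd hUo)
    (DifferentiableOn.analyticOnNhd (fun w hw => DifferentiableAt.differentiableWithinAt ?_) hUo)
    (hU ▸ (convex_halfSpace_re_gt v).isPreconnected) hu ?_ (show z ∈ U from hU ▸ hz)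
  · have hw' := hmem hw
    exact ((differentiable_lChi.deriv w).add ((differentiable_lChi w).mul
      ((differentiableAt_squareReg (by linarith) (zeta₁_two_mul_ne_zero (by linarith))).add
        (((differentiableAt_id.const_mul 2).sub_const 1).inv
          (two_mul_sub_ne_zero (by linarith)))))).neg
  · filter_upwards [(isOpen_lt continuous_const continuous_re).mem_nhds hu1] with w (hw : 1 < w.re)
    have hL := lChi_ne_zero_of_one_le_re hw.le
    rw [deriv_signCont hw, raceReg]
    generalize (2 * w - 1)⁻¹ = X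
    field_simp
    ring

theorem deriv_signCont_of_ne (hv : 1 / 2 ≤ v) (h : WeightedSummable v) {z : ℂ} (hz : v < z.re)
    (hL : lChi z ≠ 0) : deriv signCont z = -(raceReg z + (2 * z - 1)⁻¹) := by
  refine mul_left_cancel₀ hL ?_
  rw [deriv_signCont_weighted hv h hz, raceReg]
  generalize (2 * z - 1)⁻¹ = X
  field_simp
  ring

theorem weightedSummable_two : WeightedSummable 2 := by
  intro z hz
  refine Summable.of_norm_bounded
    (Real.summable_nat_rpow.2 (show 1 - z.re < -1 by linarith)) fun n => ?_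
  rcases Nat.eq_zero_or_pos n with rfl | hn
  · simp [weightedRace, Real.zero_rpow (show (1 : ℝ) - z.re ≠ 0 by linarith)]
  have hn0 : (0 : ℝ) < n := Nat.cast_pos.2 hn
  have hr := norm_summatory_primeSign_le n hn
  rw [summatory_primeSign, one_mul, Real.rpow_one, Complex.norm_real] at hr
  rw [norm_mul, norm_natCast_cpow_of_pos hn, Complex.norm_real, weightedRace, norm_mul,
    Real.norm_eq_abs (Real.log _), abs_of_nonneg (Real.log_natCast_nonneg n),
    show (1 : ℝ) - z.re = (2 : ℝ) + (-(z + 1)).re by simp; ring, Real.rpow_add hn0, Real.rpow_two,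
    pow_two]
  refine mul_le_mul_of_nonneg_right (mul_le_mul hr ?_ (Real.log_natCast_nonneg n) hn0.le)
    (by positivity)
  linarith [Real.log_le_sub_one_of_pos hn0]

variable {C e : ℝ} {N : ℕ}

/-- Convergence of the tail and of the series of the weighted race. -/
theorem weighted_of_tail (he : e ≠ 0) {z : ℂ} (hz : 1 / 2 < z.re)
    (h : LSeriesSummable (gapTail (fun n => e * weightedRace n) C N) (z + 1)) :
    Summable fun n : ℕ => (weightedRace n : ℂ) * (n : ℂ) ^ (-(z + 1)) := by
  refine ((summable_of_gapTail hz h).mul_left (e : ℂ)⁻¹).congr fun n => ?_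
  have : (e : ℂ) ≠ 0 := ofReal_ne_zero.2 he
  push_cast
  field_simp

theorem tail_of_weighted {z : ℂ} (hz : 1 / 2 < z.re) {F : ℂ}
    (h : HasSum (fun n : ℕ => (weightedRace n : ℂ) * (n : ℂ) ^ (-(z + 1))) F) :
    LSeriesHasSum (gapTail (fun n => e * weightedRace n) C N) (z + 1)
      (C * riemannZeta (z + 1 / 2) - e * F - gapHead (fun n => e * weightedRace n) C N z) :=
  lSeriesHasSum_gapTail hz ((h.mul_left (e : ℂ)).congr_fun fun n => by push_cast; ring)

/-- A one-sided bound makes the series converge on `re z > 1/2`. -/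
theorem weightedSummable_half (he : e ≠ 0)
    (hN : ∀ n, N ≤ n → e * weightedRace n ≤ C * (n : ℝ) ^ (1 / 2 : ℝ)) :
    WeightedSummable (1 / 2) := by
  obtain ⟨b, hb⟩ : ∃ b, b = gapTail (fun n => e * weightedRace n) C N := ⟨_, rfl⟩
  have hb0 : 0 ≤ b := hb ▸ gapTail_nonneg hN
  have hsum₀ : ∀ w : ℂ, 3 < w.re → LSeriesSummable b w := by
    intro w hw
    have := (tail_of_weighted (e := e) (C := C) (N := N) (z := w - 1) (by simp; linarith)
      (weightedSummable_two (w - 1) (by simp; linarith)).hasSum).LSeriesSummable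
    rwa [sub_add_cancel, ← hb] at this
  intro z hz
  refine weighted_of_tail (C := C) (N := N) he hz (hb ▸ summable_of_continuation hb0 hsum₀
    (α := (3 / 2 : ℝ)) (fun w hw hs => ?_) (by simp; linarith))
  obtain ⟨u, hu⟩ : ∃ u, u = w - 1 := ⟨_, rfl⟩
  have hu2 : 1 / 2 < u := by linarith
  have hW : WeightedSummable u := fun z hz =>
    weighted_of_tail (C := C) (N := N) he (by linarith) (hb ▸ hs (z + 1) (by simp; linarith))
  obtain ⟨r₀, hr₀, hreg⟩ := Metric.eventually_nhds_iff.1 (eventually_regular hu2.le)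
  obtain ⟨r, hr⟩ : ∃ r, r = min r₀ (u - 1 / 2) := ⟨_, rfl⟩
  have hr0 : 0 < r := hr ▸ lt_min hr₀ (by linarith)
  have hB : ∀ z ∈ Metric.ball (u : ℂ) r, 1 / 2 < z.re ∧ lChi z ≠ 0 := fun z hz => by
    rw [Metric.mem_ball] at hz
    refine ⟨?_, (hreg (hz.trans_le (hr ▸ min_le_left _ _))).1⟩
    rw [dist_eq] at hz
    have h1 := abs_lt.1 ((abs_re_le_norm (z - u)).trans_lt hz)
    simp only [sub_re, ofReal_re] at h1
    linarith [hr ▸ min_le_right r₀ (u - 1 / 2)]
  have hG : DifferentiableOn ℂ (fun z => -(raceReg z + (2 * z - 1)⁻¹))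
      (Metric.ball (u : ℂ) r) := fun z hz => by
    obtain ⟨h1, h2⟩ := hB z hz
    exact ((differentiableAt_raceReg (by linarith) (zeta₁_two_mul_ne_zero h1.le) h2).add
      (((differentiableAt_id.const_mul 2).sub_const 1).inv
        (two_mul_sub_ne_zero h1))).neg.differentiableWithinAt
  obtain ⟨g, hg⟩ := hG.isExactOn_ball
  obtain ⟨V, hV⟩ : ∃ V : Set ℂ, V = Metric.ball (u : ℂ) r ∩ {z | u < z.re} := ⟨_, rfl⟩
  have hVo : IsOpen V :=
    hV ▸ Metric.isOpen_ball.inter (isOpen_lt continuous_const continuous_re)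
  have hdS : ∀ z ∈ V, DifferentiableAt ℂ signCont z ∧
      deriv signCont z = -(raceReg z + (2 * z - 1)⁻¹) := fun z hz => by
    rw [hV] at hz
    exact ⟨(of_weighted hu2.le hW hz.2).2.1,
      deriv_signCont_of_ne hu2.le hW hz.2 (hB z hz.1).2⟩
  obtain ⟨k, hk⟩ := hVo.exists_is_const_of_deriv_eq_zero
    (hV ▸ ((convex_ball _ _).inter (convex_halfSpace_re_gt u)).isPreconnected)
    (f := fun z => g z - signCont z)
    (fun z hz => ((hg z (hV ▸ hz).1).differentiableAt.sub (hdS z hz).1).differentiableWithinAt)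
    (fun z hz => by
      simp only [Pi.zero_apply]
      rw [deriv_fun_sub (hg z (hV ▸ hz).1).differentiableAt (hdS z hz).1,
        (hg z (hV ▸ hz).1).deriv, (hdS z hz).2, sub_self])
  obtain ⟨Φ₀, hΦ₀⟩ : ∃ Φ₀ : ℂ → ℂ, Φ₀ = fun z => (g z - k + countDefect z) / z := ⟨_, rfl⟩
  have hΦ₀d : DifferentiableOn ℂ Φ₀ (Metric.ball (u : ℂ) r) := fun z hz => by
    have h1 := (hB z hz).1
    rw [hΦ₀]
    exact ((((hg z hz).differentiableAt.sub_const k).add
      (differentiableAt_countDefect (by linarith))).div differentiableAt_id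
        fun h0 => by simp [show z = 0 from h0] at h1; linarith).differentiableWithinAt
  have heq : ∀ z ∈ V, countSeries z = Φ₀ z := fun z hz => by
    have h2 := hk z hz
    simp only [signCont] at h2
    have hz0 : z ≠ 0 := fun h0 => by
      have := (hV ▸ hz).2
      simp [h0] at this
      linarith
    rw [hΦ₀]
    simp only
    rw [eq_div_iff hz0]
    linear_combination -h2
  obtain ⟨Ψ, hΨ⟩ : ∃ Ψ : ℂ → ℂ, Ψ = fun z => (C : ℂ) * riemannZeta (z + 1 / 2) -
      (e : ℂ) * -deriv Φ₀ z - gapHead (fun n => e * weightedRace n) C N z := ⟨_, rfl⟩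
  have hsub : ∀ x ∈ Metric.ball (w : ℂ) r, x - 1 ∈ Metric.ball (u : ℂ) r := fun x hx => by
    rw [Metric.mem_ball, dist_eq] at hx ⊢
    rwa [hu, show x - 1 - ((w - 1 : ℝ) : ℂ) = x - w by push_cast; ring]
  refine ⟨r, hr0, fun x => Ψ (x - 1), fun x hx => ?_, fun x hx => ?_⟩
  · have hs1 : DifferentiableAt ℂ (fun x : ℂ => x - 1) x := by fun_prop
    refine DifferentiableAt.differentiableWithinAt
      (DifferentiableAt.fun_comp' x (g := Ψ) ?_ hs1)
    rw [hΨ]
    have d1 : DifferentiableAt ℂ (fun z : ℂ => riemannZeta (z + 1 / 2)) (x - 1) :=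
      DifferentiableAt.fun_comp' (x - 1) (g := riemannZeta)
        (differentiableAt_riemannZeta (add_half_ne_one (hB _ (hsub x hx)).1)) (by fun_prop)
    have d2 : DifferentiableAt ℂ (deriv Φ₀) (x - 1) :=
      (hΦ₀d.deriv Metric.isOpen_ball).differentiableAt
        (Metric.isOpen_ball.mem_nhds (hsub x hx))
    exact ((d1.const_mul _).fun_sub (d2.fun_neg.const_mul _)).fun_sub (differentiable_gapHead _)
  · have hxu : u < (x - 1).re := by
      have := hx.2
      simp at this ⊢
      linarith
    have hmem : x - 1 ∈ V := hV ▸ ⟨hsub x hx.1, hxu⟩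
    have hd : deriv countSeries (x - 1) = deriv Φ₀ (x - 1) :=
      (Filter.eventuallyEq_of_mem (hVo.mem_nhds hmem) heq).deriv_eq
    have h3 := (tail_of_weighted (e := e) (C := C) (N := N) (z := x - 1) (by linarith)
      (of_weighted hu2.le hW hxu).2.2).LSeries_eq
    rw [sub_add_cancel, ← hb, hd] at h3
    rw [hΨ]
    exact h3.symm

/-- **No one-sided bound `C √n` for the weighted race of `π`.** -/
theorem not_eventually_weightedRace_le {e : ℝ} (he : |e| = 1) (C : ℝ) :
    ¬ ∀ᶠ n : ℕ in atTop, e * weightedRace n ≤ C * √n := by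
  intro h
  simp only [Real.sqrt_eq_rpow] at h
  have he0 : e ≠ 0 := fun h0 => by simp [h0] at he
  obtain ⟨M, hM⟩ := eventually_atTop.1 h
  have hN : ∀ n, M + 1 ≤ n → e * weightedRace n ≤ C * (n : ℝ) ^ (1 / 2 : ℝ) :=
    fun n hn => hM n (by omega)
  have hW := weightedSummable_half he0 hN
  have hU : IsOpen {z : ℂ | (1 / 2 : ℝ) < z.re} := isOpen_lt continuous_const continuous_re
  have hS2 : DifferentiableOn ℂ (deriv signCont) {z : ℂ | (1 / 2 : ℝ) < z.re} :=
    DifferentiableOn.deriv
      (fun z hz => (of_weighted le_rfl hW hz).2.1.differentiableWithinAt) hU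
  have hfree : ∀ z : ℂ, 1 / 2 < z.re → lChi z ≠ 0 := fun z hz => lChi_ne_zero_of_logDeriv
    (H := fun z => -(deriv signCont z + squareReg z + (2 * z - 1)⁻¹)) (fun z hz => ⟨?_, ?_⟩) hz
  rotate_left
  · exact (((hS2.differentiableAt (hU.mem_nhds hz)).add
      (differentiableAt_squareReg (by linarith) (zeta₁_two_mul_ne_zero hz.le))).add
      (((differentiableAt_id.const_mul 2).sub_const 1).inv
        (two_mul_sub_ne_zero hz))).neg.continuousAt
  · linear_combination deriv_signCont_weighted le_rfl hW hz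
  refine false_of_gap he (Nat.le_add_left 1 M) (W := weightedRace) (C := C) hN hfree
    (fun z hz => (of_weighted le_rfl hW hz).2.2) fun w => ?_
  obtain ⟨ρ, hρ⟩ : ∃ ρ, ρ = onLine w := ⟨_, rfl⟩
  have hne : ρ ≠ 0 := hρ ▸ onLine_ne_zero w
  have hre : ∀ δ : ℝ, 0 < δ → 1 / 2 < (ρ + δ).re := fun δ hδ => by
    simp [hρ, onLine_re]; linarith
  rw [← hρ]
  have hadd := tendsto_add_ofReal ρ
  have hz : Tendsto (fun δ : ℝ => (δ : ℂ)) (𝓝[>] 0) (𝓝 ((0 : ℝ) : ℂ)) :=
    (Complex.continuous_ofReal.tendsto _).mono_left nhdsWithin_le_nhds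
  have hρre : 0 < ρ.re := by rw [hρ, onLine_re]; norm_num
  have hS' : Tendsto (fun δ : ℝ => (δ : ℂ) * deriv signCont (ρ + δ)) (𝓝[>] 0)
      (𝓝 (-poleVal w)) := by
    refine (tendsto_raceReg_pole w).neg.congr' ?_
    filter_upwards [self_mem_nhdsWithin] with δ hδ
    rw [← hρ, deriv_signCont_of_ne le_rfl hW (hre δ hδ) (hfree _ (hre δ hδ)), mul_neg]
  have hS : Tendsto (fun δ : ℝ => (δ : ℂ) * signCont (ρ + δ)) (𝓝[>] 0) (𝓝 0) :=
    tendsto_mul_zero_of_deriv (fun δ hδ => (of_weighted le_rfl hW (hre δ hδ)).2.1) hS'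
  have hcd : DifferentiableOn ℂ countDefect {z : ℂ | (0 : ℝ) < z.re} := fun z hz =>
    (differentiableAt_countDefect hz).differentiableWithinAt
  have hd0 : Tendsto (fun δ : ℝ => (δ : ℂ) * countDefect (ρ + δ)) (𝓝[>] 0) (𝓝 0) := by
    simpa using hz.mul ((differentiableAt_countDefect hρre).continuousAt.tendsto.comp hadd)
  have hd1 : Tendsto (fun δ : ℝ => (δ : ℂ) * deriv countDefect (ρ + δ)) (𝓝[>] 0) (𝓝 0) := by
    have hc := ((hcd.deriv (isOpen_lt continuous_const continuous_re)).differentiableAt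
      ((isOpen_lt continuous_const continuous_re).mem_nhds hρre)).continuousAt
    simpa using hz.mul (hc.tendsto.comp hadd)
  have hmain := ((hS'.add hd1).div hadd hne).sub ((hS.add hd0).div (hadd.pow 2) (pow_ne_zero 2 hne))
  rw [add_zero, add_zero, zero_div, sub_zero] at hmain
  have hmain' := hmain.neg
  rw [neg_div, neg_neg] at hmain'
  refine hmain'.congr' ?_
  filter_upwards [self_mem_nhdsWithin] with δ hδ
  have hδ0 : (0 : ℝ) < δ := hδ
  have hz0 : ρ + (δ : ℂ) ≠ 0 := fun h0 => by
    have := hre δ hδ0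
    rw [h0] at this
    norm_num at this
  have hev : countSeries =ᶠ[𝓝 (ρ + δ)] fun z => (signCont z + countDefect z) / z := by
    filter_upwards [eventually_ne_nhds hz0] with z hz
    rw [signCont, sub_add_cancel, mul_div_cancel_left₀ _ hz]
  have hder : deriv countSeries (ρ + δ) =
      ((deriv signCont (ρ + δ) + deriv countDefect (ρ + δ)) * (ρ + δ) -
        (signCont (ρ + δ) + countDefect (ρ + δ)) * 1) / (ρ + δ) ^ 2 := by
    rw [hev.deriv_eq]
    exact (((of_weighted le_rfl hW (hre δ hδ0)).2.1.hasDerivAt.fun_add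
      (differentiableAt_countDefect (by linarith [hre δ hδ0])).hasDerivAt).fun_div
        (hasDerivAt_id' _) hz0).deriv
  rw [hder]
  simp only [Pi.div_apply]
  field_simp

end FA.PrimeRaceLittlewood

end
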