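import Fermat.Agent.LiouvilleOmega.Abstract
import Mathlib.Analysis.SpecificLimits.Normed
import Mathlib.MeasureTheory.Measure.Lebesgue.Basic

/-!
# Limits along a line of a series with nonnegative coefficients form a positive definite function

So does their product with the triangle `(1 - |t| / T)⁺`, which has finite support. By a Følner
argument in the group generated by the support the trigonometric sum over it is `≥ 0`, whatever
linear relations the frequencies satisfy.
-/

set_option autoImplicit false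

noncomputable section

namespace FA.PrimeRaceLittlewood

open Complex Filter Topology MeasureTheory
open FA.MertensOmega (onLine onLine_re)
open FA.LiouvilleOmega (IsNonnegSeries)
open scoped ComplexConjugate

/-- All the finite forms `∑ c j conj (c k) R (j - k)` have nonnegative real part. -/
def IsPosDef (R : ℝ → ℂ) : Prop :=
  ∀ (A : Finset ℝ) (c : ℝ → ℂ), 0 ≤ (∑ j ∈ A, ∑ k ∈ A, c j * conj (c k) * R (j - k)).re

/-- **The limits along the line.** -/
theorem isPosDef_of_series {b : ℕ → ℝ} {F : ℂ → ℂ} (h : IsNonnegSeries b F) {R : ℝ → ℂ}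
    (hR : ∀ w : ℝ, Tendsto (fun δ : ℝ => (δ : ℂ) * F (onLine w + δ)) (𝓝[>] 0) (𝓝 (R w))) :
    IsPosDef R := by
  intro A c
  refine ge_of_tendsto ((Complex.continuous_re.tendsto _).comp (tendsto_finsetSum A fun j _ =>
    tendsto_finsetSum A fun k _ => (hR (j - k)).const_mul (c j * conj (c k)))) ?_
  filter_upwards [self_mem_nhdsWithin] with δ hδ
  have hδ0 : (0 : ℝ) < δ := hδ
  simp only [Function.comp_apply]
  have hs := hasSum_sum (s := A) fun j _ => hasSum_sum (s := A) fun k _ =>
    ((h.2 (onLine (j - k) + δ) (by simp [onLine_re]; linarith)).mul_left (δ : ℂ)).mul_left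
      (c j * conj (c k))
  refine (Complex.hasSum_re hs).nonneg fun n => ?_
  obtain ⟨v, hv⟩ : ∃ v : ℝ → ℂ, v = fun j =>
      c j * exp (((-j * Real.log n : ℝ) : ℂ) * I) := ⟨_, rfl⟩
  have hterm : ∀ j k : ℝ, c j * conj (c k) *
      ((δ : ℂ) * ((b n : ℂ) * exp (-(onLine (j - k) + δ + 1) * Real.log n))) =
      ((δ * b n * Real.exp (-(3 / 2 + δ) * Real.log n) : ℝ) : ℂ) * (v j * conj (v k)) := by
    intro j k
    rw [show -(onLine (j - k) + δ + 1) * (Real.log n : ℂ) =
      ((-(3 / 2 + δ) * Real.log n : ℝ) : ℂ) + (((-j * Real.log n : ℝ) : ℂ) * I +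
        conj (((-k * Real.log n : ℝ) : ℂ) * I)) by
        rw [map_mul, conj_I, conj_ofReal, onLine]; push_cast; ring,
      Complex.exp_add, Complex.exp_add, Complex.exp_conj, ← ofReal_exp]
    simp only [hv, map_mul]
    push_cast
    ring
  rw [Finset.sum_congr rfl fun j _ => Finset.sum_congr rfl fun k _ => hterm j k]
  simp only [← Finset.mul_sum, ← Finset.sum_mul, ← map_sum, Complex.mul_conj, ← ofReal_mul,
    ofReal_re]
  exact mul_nonneg (mul_nonneg (mul_nonneg hδ0.le (h.1 n)) (Real.exp_pos _).le)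
    (Complex.normSq_nonneg _)

/-- The triangle. -/
def tri (T t : ℝ) : ℝ := max 0 (1 - |t| / T)

/-- **The product with the triangle.** -/
theorem IsPosDef.mul_tri {R : ℝ → ℂ} (hR : IsPosDef R) {T : ℝ} (hT : 0 < T) :
    IsPosDef fun t => (tri T t : ℂ) * R t := by
  intro A c
  obtain ⟨g, hg⟩ : ∃ g : ℝ → ℝ → ℝ, g = fun j k => (c j * conj (c k) * R (j - k)).re :=
    ⟨_, rfl⟩
  obtain ⟨I₀, hI⟩ : ∃ I₀ : ℝ → ℝ → Set ℝ,
      I₀ = fun j k => Set.Icc (max j k) (min (j + T) (k + T)) := ⟨_, rfl⟩
  have hvol : ∀ j k, volume.real (I₀ j k) = T * tri T (j - k) := by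
    intro j k
    rw [hI, Real.volume_real_Icc, tri, mul_max_of_nonneg _ _ hT.le, mul_zero, mul_sub, mul_one,
      mul_div_cancel₀ _ hT.ne', max_comm, min_add_add_right]
    rcases le_total j k with h | h
    · rw [min_eq_left h, max_eq_right h, abs_of_nonpos (by linarith)]; ring_nf
    · rw [min_eq_right h, max_eq_left h, abs_of_nonneg (by linarith)]; ring_nf
  have hint : ∀ j k, Integrable ((I₀ j k).indicator fun _ => g j k) := fun j k => by
    rw [integrable_indicator_iff (by rw [hI]; exact measurableSet_Icc)]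
    exact integrableOn_const (by rw [hI]; simp)
  have h0 : 0 ≤ ∫ x : ℝ, ∑ j ∈ A, ∑ k ∈ A, (I₀ j k).indicator (fun _ => g j k) x := by
    refine integral_nonneg fun x => ?_
    obtain ⟨u, hu⟩ : ∃ u : ℝ → ℂ, u = fun j => if j ≤ x ∧ x ≤ j + T then c j else 0 := ⟨_, rfl⟩
    refine (hR A u).trans_eq ?_
    rw [re_sum]
    refine Finset.sum_congr rfl fun j _ => ?_
    rw [re_sum]
    refine Finset.sum_congr rfl fun k _ => ?_
    simp only [hu, hg, hI, Set.indicator_apply, Set.mem_Icc, max_le_iff, le_min_iff]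
    by_cases hj : j ≤ x ∧ x ≤ j + T <;> by_cases hk : k ≤ x ∧ x ≤ k + T <;>
      simp [hj, hk] <;> tauto
  rw [integral_finsetSum _ fun j _ => integrable_finsetSum _ fun k _ => hint j k,
    Finset.sum_congr rfl fun j _ => integral_finsetSum _ fun k _ => hint j k] at h0
  have he : ∀ j k, ∫ x, (I₀ j k).indicator (fun _ => g j k) x =
      T * (c j * conj (c k) * ((tri T (j - k) : ℂ) * R (j - k))).re := by
    intro j k
    rw [integral_indicator (by rw [hI]; exact measurableSet_Icc), setIntegral_const, hvol,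
      smul_eq_mul, mul_assoc T]
    congr 1
    rw [hg, show c j * conj (c k) * ((tri T (j - k) : ℂ) * R (j - k)) =
      (tri T (j - k) : ℂ) * (c j * conj (c k) * R (j - k)) by ring, re_ofReal_mul]
  simp only [he, ← Finset.mul_sum] at h0
  simp only [re_sum]
  exact nonneg_of_mul_nonneg_right h0 hT

/-- Almost invariant finite sets in the monoid generated by `S`. -/
theorem exists_almost_invariant (S : Finset ℝ) {η : ℝ} (hη : 0 < η) :
    ∃ B : Finset ℝ, B.Nonempty ∧
      ∀ t ∈ S, (1 - η) * (B.card : ℝ) ≤ (B.filter fun x => x + t ∈ B).card := by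
  classical
  obtain ⟨B, hB⟩ : ∃ B : ℕ → Finset ℝ, B = fun N =>
      (Fintype.piFinset fun _ : S => Finset.range (N + 1)).image
        fun n : S → ℕ => ∑ s : S, (n s : ℝ) * (s : ℝ) :=
    ⟨_, rfl⟩
  have hne : ∀ N, (B N).Nonempty := fun N => by
    rw [hB]
    exact Finset.Nonempty.image ⟨fun _ => 0, by simp⟩ _
  have hmono : ∀ N, B N ⊆ B (N + 1) := fun N => by
    rw [hB]
    exact Finset.image_subset_image (Fintype.piFinset_subset _ _ fun _ =>
      Finset.range_mono (by omega))
  have hshift : ∀ N, ∀ t ∈ S, ∀ x ∈ B N, x + t ∈ B (N + 1) := fun N t ht x hx => by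
    rw [hB, Finset.mem_image] at hx ⊢
    obtain ⟨n, hn, rfl⟩ := hx
    refine ⟨n + Pi.single ⟨t, ht⟩ 1, ?_, ?_⟩
    · rw [Fintype.mem_piFinset] at hn ⊢
      intro s
      have := Finset.mem_range.1 (hn s)
      rw [Finset.mem_range, Pi.add_apply]
      rcases eq_or_ne s ⟨t, ht⟩ with rfl | hs
      · rw [Pi.single_eq_same]; omega
      · rw [Pi.single_eq_of_ne hs]; omega
    · simp only [Pi.add_apply, Nat.cast_add, add_mul, Finset.sum_add_distrib]
      congr 1
      rw [Fintype.sum_eq_single ⟨t, ht⟩ fun s hs => by simp [Pi.single_eq_of_ne hs]]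
      simp
  have hcard : ∀ N, ((B N).card : ℝ) ≤ ((N : ℝ) + 1) ^ S.card := fun N => by
    have : (B N).card ≤ (N + 1) ^ S.card := by
      rw [hB]
      refine Finset.card_image_le.trans (le_of_eq ?_)
      simp [Fintype.card_piFinset]
    exact_mod_cast this
  obtain ⟨N, hN⟩ : ∃ N, ((B (N + 1)).card : ℝ) ≤ (1 + η) * (B N).card := by
    by_contra hno
    push Not at hno
    have hgr : ∀ N : ℕ, (1 + η) ^ N ≤ ((B N).card : ℝ) := by
      intro N
      induction N with
      | zero => simpa using (hne 0).card_pos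
      | succ N ih =>
        rw [pow_succ']
        exact (mul_le_mul_of_nonneg_left ih (by positivity)).trans (hno N).le
    obtain ⟨N, hN, hN1⟩ := (((tendsto_pow_const_div_const_pow_of_one_lt S.card
      (show 1 < 1 + η by linarith)).eventually_lt_const
        (show (0 : ℝ) < 1 / 2 ^ S.card by positivity)).and (eventually_ge_atTop 1)).exists
    have h1 : ((N : ℝ) + 1) ^ S.card ≤ 2 ^ S.card * (N : ℝ) ^ S.card := by
      rw [← mul_pow]
      refine pow_le_pow_left₀ (by positivity) ?_ _
      have : (1 : ℝ) ≤ N := by exact_mod_cast hN1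
      linarith
    rw [div_lt_div_iff₀ (by positivity) (by positivity)] at hN
    linarith [(hgr N).trans ((hcard N).trans h1)]
  refine ⟨B N, hne N, fun t ht => ?_⟩
  have hsub : (B N).image (fun x => x + t) ⊆ B (N + 1) := fun y hy => by
    obtain ⟨x, hx, rfl⟩ := Finset.mem_image.1 hy
    exact hshift N t ht x hx
  have hinter : ((B N).image (fun x => x + t) ∩ B N).card =
      ((B N).filter fun x => x + t ∈ B N).card := by
    rw [← Finset.filter_mem_eq_inter, Finset.filter_image,
      Finset.card_image_of_injective _ (add_left_injective t)]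
  have h1 := Finset.card_union_add_card_inter ((B N).image fun x => x + t) (B N)
  rw [hinter, Finset.card_image_of_injective _ (add_left_injective t)] at h1
  have h2 := Finset.card_le_card (Finset.union_subset hsub (hmono N))
  have h2' : (((((B N).image fun x => x + t) ∪ B N).card : ℕ) : ℝ) ≤ (B (N + 1)).card := by
    exact_mod_cast h2
  have h1' := congrArg (fun m : ℕ => (m : ℝ)) h1
  push_cast at h1'
  nlinarith

/-- **The trigonometric sum over the support.** -/
theorem IsPosDef.trig_sum_nonneg {R : ℝ → ℂ} (hR : IsPosDef R) {T : ℝ} (hT : 0 < T)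
    (S : Finset ℝ) (hS : ∀ t, |t| < T → t ∉ S → R t = 0) (y : ℝ) :
    0 ≤ ∑ t ∈ S, tri T t * (exp (((t * y : ℝ) : ℂ) * I) * R t).re := by
  classical
  obtain ⟨u, hu⟩ : ∃ u : ℝ → ℝ, u = fun t =>
      tri T t * (exp (((t * y : ℝ) : ℂ) * I) * R t).re := ⟨_, rfl⟩
  have hu0 : ∀ t, t ∉ S → u t = 0 := fun t ht => by
    rw [hu]
    simp only
    rcases lt_or_ge |t| T with h | h
    · simp [hS t h ht]
    · rw [tri, max_eq_left (by rw [sub_nonpos, one_le_div hT]; exact h), zero_mul]
  suffices ∀ η, 0 < η → -(η * ∑ t ∈ S, |u t|) ≤ ∑ t ∈ S, u t by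
    rw [show (∑ t ∈ S, tri T t * (exp (((t * y : ℝ) : ℂ) * I) * R t).re) = ∑ t ∈ S, u t by
      rw [hu]]
    refine le_of_forall_pos_le_add fun ε hε => ?_
    have hA : 0 ≤ ∑ t ∈ S, |u t| := Finset.sum_nonneg fun t _ => abs_nonneg _
    have h := this (ε / (∑ t ∈ S, |u t| + 1)) (by positivity)
    have h2 : ε / (∑ t ∈ S, |u t| + 1) * ∑ t ∈ S, |u t| ≤ ε := by
      rw [div_mul_eq_mul_div, div_le_iff₀ (by positivity)]
      nlinarith
    linarith
  intro η hη
  obtain ⟨B, hBne, hB⟩ := exists_almost_invariant S hη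
  have hform := hR.mul_tri hT B fun j => exp (((j * y : ℝ) : ℂ) * I)
  have hterm : ∀ j k : ℝ, (exp (((j * y : ℝ) : ℂ) * I) * conj (exp (((k * y : ℝ) : ℂ) * I)) *
      ((tri T (j - k) : ℂ) * R (j - k))).re = u (j - k) := fun j k => by
    rw [← Complex.exp_conj, map_mul, conj_I, conj_ofReal, ← Complex.exp_add,
      mul_left_comm, re_ofReal_mul, hu]
    push_cast
    ring_nf
  simp only [re_sum, hterm] at hform
  rw [← Finset.sum_product', ← Finset.sum_filter_of_ne (p := fun p : ℝ × ℝ => p.1 - p.2 ∈ S)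
      (fun p _ hp => by_contra fun h => hp (hu0 _ h)),
    ← Finset.sum_fiberwise_of_maps_to (g := fun p : ℝ × ℝ => p.1 - p.2) (t := S)
      (fun p hp => (Finset.mem_filter.1 hp).2)] at hform
  have hfib : ∀ t ∈ S, ∑ p ∈ ((B ×ˢ B).filter fun p : ℝ × ℝ => p.1 - p.2 ∈ S).filter
      (fun p => p.1 - p.2 = t), u (p.1 - p.2) =
        ((B.filter fun x => x + t ∈ B).card : ℝ) * u t := by
    intro t ht
    rw [Finset.filter_filter, Finset.sum_congr rfl
      (g := fun _ => u t) (fun p hp => by rw [(Finset.mem_filter.1 hp).2.2]),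
      Finset.sum_const, nsmul_eq_mul]
    congr 2
    refine Finset.card_bij' (fun p _ => p.2) (fun x _ => (x + t, x)) ?_ ?_ ?_ ?_
    · intro p hp
      obtain ⟨hp1, -, hp2⟩ := Finset.mem_filter.1 hp
      obtain ⟨h1, h2⟩ := Finset.mem_product.1 hp1
      exact Finset.mem_filter.2 ⟨h2, by rwa [show p.2 + t = p.1 by linarith]⟩
    · intro x hx
      obtain ⟨h1, h2⟩ := Finset.mem_filter.1 hx
      exact Finset.mem_filter.2 ⟨Finset.mem_product.2 ⟨h2, h1⟩, by simp [ht]⟩
    · intro p hp
      obtain ⟨-, -, hp2⟩ := Finset.mem_filter.1 hp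
      exact Prod.ext (by simp only; linarith) rfl
    · intro x _
      rfl
  rw [Finset.sum_congr rfl hfib] at hform
  have hB0 : (0 : ℝ) < B.card := Nat.cast_pos.2 hBne.card_pos
  refine le_of_mul_le_mul_left ?_ hB0
  rw [Finset.mul_sum, Finset.mul_sum, ← Finset.sum_neg_distrib, Finset.mul_sum]
  have hle : ∀ t ∈ S, (B.card : ℝ) * -(η * |u t|) +
      ((B.filter fun x => x + t ∈ B).card : ℝ) * u t ≤ (B.card : ℝ) * u t := by
    intro t ht
    obtain ⟨M, hM⟩ : ∃ M : ℝ, M = ((B.filter fun x => x + t ∈ B).card : ℝ) := ⟨_, rfl⟩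
    have h1 : M ≤ B.card := hM ▸ by exact_mod_cast Finset.card_filter_le _ _
    have h2 := hB t ht
    rw [← hM] at h2 ⊢
    nlinarith [mul_le_mul_of_nonneg_left (neg_abs_le (u t)) (sub_nonneg.2 h1),
      mul_le_mul_of_nonneg_right (show (B.card : ℝ) - M ≤ η * B.card by linarith)
        (abs_nonneg (u t))]
  have := Finset.sum_le_sum hle
  rw [Finset.sum_add_distrib] at this
  linarith

end FA.PrimeRaceLittlewood

end
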