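import Fermat.Agent.PrimeRaceLittlewood.Growth
import Fermat.Agent.PrimeRaceLittlewood.PosDef
import Fermat.Agent.PrimeRace.Series
import Mathlib.Analysis.SpecialFunctions.Trigonometric.Bounds
import Mathlib.Analysis.Calculus.MeanValue

/-!
# The residues on the line bound the number of zeros

If the limits of a series with nonnegative coefficients at `1/2 + it` are `-e m t / (1/2 + it)`,
`m` the multiplicity, then `∑ (1 - |t| / T)⁺ m t sin (t / T) / t = O (1)`, so there are `O (T)`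
zeros up to `T`.
-/

set_option autoImplicit false

noncomputable section

namespace FA.PrimeRaceLittlewood

open Complex Filter Topology
open FA.MertensOmega (onLine onLine_re onLine_im onLine_zero)
open FA.LiouvilleOmega (IsNonnegSeries)
open FA.PrimeRace (lChi differentiable_lChi lChi_ne_zero_of_one_le_re lChi_real_ne_zero squareReg
  raceReg differentiableAt_squareReg zeta₁_two_mul_ne_zero lChi_one_sub_eq_zero)

/-- The multiplicity of `1/2 + it`. -/
def mult (t : ℝ) : ℕ := analyticOrderNatAt lChi (onLine t)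

theorem analyticOrderAt_lChi_ne_top (ρ : ℂ) : analyticOrderAt lChi ρ ≠ ⊤ := by
  refine (differentiable_lChi.differentiableOn.analyticOnNhd
    isOpen_univ).analyticOrderAt_ne_top_of_isPreconnected isPreconnected_univ (x := (2 : ℂ))
      (Set.mem_univ _) (Set.mem_univ _) ?_
  rw [analyticOrderAt_eq_zero.2 (Or.inr (lChi_ne_zero_of_one_le_re (by norm_num)))]
  exact ENat.zero_ne_top

theorem tendsto_add_ofReal (ρ : ℂ) :
    Tendsto (fun δ : ℝ => ρ + (δ : ℂ)) (𝓝[>] 0) (𝓝 ρ) := by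
  have h : Continuous fun δ : ℝ => ρ + (δ : ℂ) := by fun_prop
  simpa using (h.tendsto 0).mono_left (nhdsWithin_le_nhds (s := Set.Ioi (0 : ℝ)))

/-- **The residue of `L'/L` along the horizontal.** -/
theorem tendsto_logDeriv_lChi (ρ : ℂ) :
    (∀ᶠ δ : ℝ in 𝓝[>] 0, lChi (ρ + δ) ≠ 0) ∧
      Tendsto (fun δ : ℝ => (δ : ℂ) * (deriv lChi (ρ + δ) / lChi (ρ + δ))) (𝓝[>] 0)
        (𝓝 (analyticOrderNatAt lChi ρ : ℂ)) := by
  have ha : AnalyticAt ℂ lChi ρ := differentiable_lChi.differentiableOn.analyticAt univ_mem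
  obtain ⟨g, hg, hg0, heq⟩ := ha.analyticOrderAt_ne_top.1 (analyticOrderAt_lChi_ne_top ρ)
  generalize analyticOrderNatAt lChi ρ = m at heq ⊢
  simp only [smul_eq_mul] at heq
  have hev : ∀ᶠ z in 𝓝 ρ, lChi z = (z - ρ) ^ m * g z ∧ g z ≠ 0 ∧ DifferentiableAt ℂ g z ∧
      deriv lChi z = deriv (fun w => (w - ρ) ^ m * g w) z := by
    filter_upwards [heq, hg.continuousAt.eventually_ne hg0, hg.eventually_analyticAt,
      heq.eventually_nhds] with z h1 h2 h3 h4
    exact ⟨h1, h2, h3.differentiableAt, Filter.EventuallyEq.deriv_eq h4⟩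
  have hd := (tendsto_add_ofReal ρ).eventually hev
  refine ⟨?_, ?_⟩
  · filter_upwards [hd, self_mem_nhdsWithin] with δ h hδ
    rw [h.1, add_sub_cancel_left]
    exact mul_ne_zero (pow_ne_zero _ (ofReal_ne_zero.2 (ne_of_gt hδ))) h.2.1
  have hlim : Tendsto (fun δ : ℝ => (m : ℂ) + (δ : ℂ) * (deriv g (ρ + δ) / g (ρ + δ)))
      (𝓝[>] 0) (𝓝 (m : ℂ)) := by
    have h1 : ContinuousAt (fun z => deriv g z / g z) ρ := hg.deriv.continuousAt.div
      hg.continuousAt hg0
    have h0 : Tendsto (fun δ : ℝ => (δ : ℂ)) (𝓝[>] 0) (𝓝 ((0 : ℝ) : ℂ)) :=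
      (Complex.continuous_ofReal.tendsto _).mono_left nhdsWithin_le_nhds
    simpa using (h0.mul (h1.tendsto.comp (tendsto_add_ofReal ρ))).const_add (m : ℂ)
  refine hlim.congr' ?_
  filter_upwards [hd, self_mem_nhdsWithin] with δ h hδ
  obtain ⟨h1, h2, h3, h4⟩ := h
  have hδ0 : (δ : ℂ) ≠ 0 := ofReal_ne_zero.2 (ne_of_gt hδ)
  have h5 : HasDerivAt (fun w : ℂ => (w - ρ) ^ m)
      ((m : ℂ) * (ρ + δ - ρ) ^ (m - 1)) (ρ + δ) := by
    simpa using ((hasDerivAt_id (ρ + (δ : ℂ))).sub_const ρ).fun_pow m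
  rw [h4, (h5.fun_mul h3.hasDerivAt).deriv, h1, add_sub_cancel_left]
  rcases m with _ | k
  · simp
  · rw [Nat.add_sub_cancel, pow_succ]
    field_simp

/-- A holomorphic logarithmic derivative on `re z > 1/2` leaves no zero there. -/
theorem lChi_ne_zero_of_logDeriv {H : ℂ → ℂ}
    (hH : ∀ z : ℂ, 1 / 2 < z.re → ContinuousAt H z ∧ deriv lChi z = lChi z * H z)
    {ρ : ℂ} (hρ : 1 / 2 < ρ.re) : lChi ρ ≠ 0 := by
  intro h0
  obtain ⟨hne, hlim⟩ := tendsto_logDeriv_lChi ρ
  have h2 : Tendsto (fun δ : ℝ => (δ : ℂ) * (deriv lChi (ρ + δ) / lChi (ρ + δ))) (𝓝[>] 0)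
      (𝓝 0) := by
    have hz : Tendsto (fun δ : ℝ => (δ : ℂ)) (𝓝[>] 0) (𝓝 ((0 : ℝ) : ℂ)) :=
      (Complex.continuous_ofReal.tendsto _).mono_left nhdsWithin_le_nhds
    have := hz.mul ((hH ρ hρ).1.tendsto.comp (tendsto_add_ofReal ρ))
    rw [ofReal_zero, zero_mul] at this
    refine this.congr' ?_
    filter_upwards [hne, self_mem_nhdsWithin] with δ hδ hpos
    have hp : (0 : ℝ) < δ := hpos
    rw [(hH (ρ + δ) (by simp; linarith)).2, mul_div_cancel_left₀ _ hδ, Function.comp_apply]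
  have hm := tendsto_nhds_unique hlim h2
  rw [Nat.cast_eq_zero] at hm
  have h3 := (differentiable_lChi.differentiableOn.analyticAt univ_mem :
    AnalyticAt ℂ lChi ρ).analyticOrderAt_eq_zero
  rw [← Nat.cast_analyticOrderNatAt (analyticOrderAt_lChi_ne_top ρ), hm] at h3
  exact h3.1 rfl h0

theorem differentiableAt_squareReg_line (t : ℝ) : DifferentiableAt ℂ squareReg (onLine t) :=
  differentiableAt_squareReg (by rw [onLine_re]; norm_num)
    (zeta₁_two_mul_ne_zero (by rw [onLine_re]))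

/-- The residues of the series of the race. -/
theorem tendsto_raceReg_pole (t : ℝ) :
    Tendsto (fun δ : ℝ =>
        (δ : ℂ) * (raceReg (onLine t + δ) + (2 * (onLine t + δ) - 1)⁻¹)) (𝓝[>] 0)
      (𝓝 (if t = 0 then (1 / 2 : ℂ) else (mult t : ℂ))) := by
  have hL : Tendsto (fun δ : ℝ =>
      (δ : ℂ) * (deriv lChi (onLine t + δ) / lChi (onLine t + δ))) (𝓝[>] 0)
      (𝓝 (mult t : ℂ)) := (tendsto_logDeriv_lChi (onLine t)).2
  have hz : Tendsto (fun δ : ℝ => (δ : ℂ)) (𝓝[>] 0) (𝓝 ((0 : ℝ) : ℂ)) :=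
    (Complex.continuous_ofReal.tendsto _).mono_left nhdsWithin_le_nhds
  have hS : Tendsto (fun δ : ℝ => (δ : ℂ) * squareReg (onLine t + δ)) (𝓝[>] 0) (𝓝 0) := by
    simpa using hz.mul ((differentiableAt_squareReg_line t).continuousAt.tendsto.comp
      (tendsto_add_ofReal (onLine t)))
  have hm0 : t = 0 → mult t = 0 := fun h => by
    rw [mult, h, analyticOrderNatAt, analyticOrderAt_eq_zero.2 (Or.inr ?_), ENat.toNat_zero]
    rw [onLine_zero, show (1 / 2 : ℂ) = ((1 / 2 : ℝ) : ℂ) by push_cast; rfl]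
    exact lChi_real_ne_zero (by norm_num)
  have hX : Tendsto (fun δ : ℝ => (δ : ℂ) * (2 * (onLine t + δ) - 1)⁻¹) (𝓝[>] 0)
      (𝓝 (if t = 0 then (1 / 2 : ℂ) else 0)) := by
    split_ifs with h
    · refine tendsto_nhds_of_eventually_eq ?_
      filter_upwards [self_mem_nhdsWithin] with δ hδ
      have : (δ : ℂ) ≠ 0 := ofReal_ne_zero.2 (ne_of_gt hδ)
      rw [h, onLine_zero, show 2 * ((1 : ℂ) / 2 + δ) - 1 = 2 * δ by ring]
      field_simp
    · have hne : 2 * onLine t - 1 ≠ 0 := fun e => h (by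
        simpa [onLine] using congrArg Complex.im e)
      have hc : Tendsto (fun δ : ℝ => (2 * (onLine t + (δ : ℂ)) - 1)⁻¹) (𝓝[>] 0)
          (𝓝 (2 * onLine t - 1)⁻¹) :=
        (((tendsto_add_ofReal (onLine t)).const_mul 2).sub_const 1).inv₀ hne
      simpa using hz.mul hc
  have h := (hL.add hS).add hX
  rw [add_zero] at h
  have e : (mult t : ℂ) + (if t = 0 then (1 / 2 : ℂ) else 0) =
      if t = 0 then (1 / 2 : ℂ) else (mult t : ℂ) := by
    split_ifs with ht
    · rw [hm0 ht, Nat.cast_zero, zero_add]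
    · rw [add_zero]
  rw [← e]
  refine h.congr fun δ => ?_
  rw [raceReg]
  ring

/-- If `δ f' (ρ + δ)` has a limit then `δ f (ρ + δ)` tends to `0`. -/
theorem tendsto_mul_zero_of_deriv {f : ℂ → ℂ} {ρ l : ℂ}
    (hd : ∀ δ : ℝ, 0 < δ → DifferentiableAt ℂ f (ρ + δ))
    (hl : Tendsto (fun δ : ℝ => (δ : ℂ) * deriv f (ρ + δ)) (𝓝[>] 0) (𝓝 l)) :
    Tendsto (fun δ : ℝ => (δ : ℂ) * f (ρ + δ)) (𝓝[>] 0) (𝓝 0) := by
  obtain ⟨K, hK⟩ : ∃ K, K = ‖l‖ + 1 := ⟨_, rfl⟩
  obtain ⟨d, hd0, hd1⟩ := mem_nhdsGT_iff_exists_Ioc_subset.1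
    (hl.norm.eventually (gt_mem_nhds (show ‖l‖ < K by linarith)))
  obtain ⟨b, hb⟩ : ∃ b, b = min d 1 := ⟨_, rfl⟩
  have hb0 : 0 < b := hb ▸ lt_min hd0 one_pos
  have hstep : ∀ u v : ℝ, 0 < u → u ≤ v → v ≤ b →
      ‖f (ρ + v) - f (ρ + u)‖ ≤ K / u * (v - u) := by
    intro u v hu huv hvb
    have hder : ∀ x ∈ Set.Icc u v, HasDerivWithinAt (fun x : ℝ => f (ρ + x))
        (deriv f (ρ + x)) (Set.Icc u v) x := fun x hx =>
      (((hd x (hu.trans_le hx.1)).hasDerivAt.comp_const_add ρ (x : ℂ)).comp_ofReal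
        ).hasDerivWithinAt
    refine norm_image_sub_le_of_norm_deriv_le_segment' hder (fun x hx => ?_) v ⟨huv, le_rfl⟩
    have hx0 : 0 < x := hu.trans_le hx.1
    have h1 : ‖(x : ℂ) * deriv f (ρ + x)‖ < K :=
      hd1 ⟨hx0, (hx.2.le.trans hvb).trans (hb ▸ min_le_left _ _)⟩
    rw [norm_mul, norm_real, Real.norm_of_nonneg hx0.le] at h1
    rw [le_div_iff₀ hu]
    nlinarith [hx.1, norm_nonneg (deriv f (ρ + x))]
  refine squeeze_zero_norm' (a := fun δ => δ * ‖f (ρ + b)‖ + 2 * K * √δ) ?_ ?_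
  · filter_upwards [Ioo_mem_nhdsGT (show (0 : ℝ) < b ^ 2 by positivity)] with δ hδ
    obtain ⟨hδ0, hδb⟩ := hδ
    have hb1 : b ≤ 1 := hb ▸ min_le_right _ _
    have hK0 : 0 ≤ K := hK ▸ by positivity
    have hsq : √δ * √δ = δ := Real.mul_self_sqrt hδ0.le
    have hs0 : 0 < √δ := Real.sqrt_pos.2 hδ0
    have hsb : √δ ≤ b := Real.sqrt_le_iff.2 ⟨hb0.le, hδb.le⟩
    have hds : δ ≤ √δ := by nlinarith
    have h1 := hstep δ (√δ) hδ0 hds hsb
    have h2 := hstep (√δ) b hs0 hsb le_rfl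
    have e : f (ρ + δ) =
        f (ρ + b) - (f (ρ + b) - f (ρ + √δ)) - (f (ρ + √δ) - f (ρ + δ)) := by ring
    rw [norm_mul, norm_real, Real.norm_of_nonneg hδ0.le, e]
    refine (mul_le_mul_of_nonneg_left ((norm_sub_le _ _).trans
      (add_le_add ((norm_sub_le _ _).trans (add_le_add le_rfl h2)) h1)) hδ0.le).trans ?_
    have h3 : δ * (K / √δ * (b - √δ)) ≤ K * √δ := by
      rw [show δ * (K / √δ * (b - √δ)) = K * √δ * (b - √δ) by
        field_simp; linear_combination (-(K * (b - √δ))) * hsq]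
      exact mul_le_of_le_one_right (by positivity) (by linarith)
    have h4 : δ * (K / δ * (√δ - δ)) ≤ K * √δ := by
      rw [show δ * (K / δ * (√δ - δ)) = K * (√δ - δ) by field_simp]
      exact mul_le_mul_of_nonneg_left (by linarith) hK0
    linarith
  · have hc : Continuous fun δ : ℝ => δ * ‖f (ρ + b)‖ + 2 * K * √δ := by fun_prop
    simpa using (hc.tendsto 0).mono_left (nhdsWithin_le_nhds (s := Set.Ioi 0))

theorem raceF_zero_neg (hfree : ∀ z : ℂ, 1 / 2 < z.re → lChi z ≠ 0) {z : ℂ} (h : raceF z = 0) :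
    z.im = 0 ∧ z.re < 0 := by
  obtain ⟨hz, hL, h0, -⟩ := raceF_zero_data h
  obtain ⟨w, hw⟩ : ∃ w, w = z ^ (1 / 2 : ℂ) := ⟨_, rfl⟩
  rw [← hw] at hL h0
  have hre : w.re = 0 := le_antisymm (not_lt.1 fun hlt => hfree _ (by simp; linarith) hL) h0
  have hzw : z = w ^ 2 := by rw [hw, sqrt_sq]
  have him : w.im ≠ 0 := fun e => hz (by
    rw [hzw, show w = 0 from Complex.ext hre e]
    simp)
  rw [hzw]
  constructor <;> simp [pow_two, hre]
  exact him

theorem mult_eq {t : ℝ} (ht : t ≠ 0) :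
    mult t = analyticOrderNatAt raceF (((-(t ^ 2) : ℝ) : ℂ)) := by
  rw [mult, show onLine t = 1 / 2 + (t : ℂ) * I from rfl,
    analyticOrderNatAt_lChi (mul_ne_zero (ofReal_ne_zero.2 ht) I_ne_zero) (by simp; norm_num),
    mul_pow, I_sq]
  push_cast
  ring_nf

theorem raceF_eq_zero_iff {t : ℝ} (ht : t ≠ 0) :
    raceF (((-(t ^ 2) : ℝ) : ℂ)) = 0 ↔ mult t ≠ 0 := by
  rw [mult_eq ht, analyticOrderNatAt, Ne, ENat.toNat_eq_zero, not_or]
  have ha : AnalyticAt ℂ raceF (((-(t ^ 2) : ℝ) : ℂ)) :=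
    differentiable_raceF.differentiableOn.analyticAt univ_mem
  constructor
  · refine fun h => ⟨fun h' => ha.analyticOrderAt_eq_zero.1 h' h, ?_⟩
    refine (differentiable_raceF.differentiableOn.analyticOnNhd
      isOpen_univ).analyticOrderAt_ne_top_of_isPreconnected isPreconnected_univ (x := (0 : ℂ))
        (Set.mem_univ _) (Set.mem_univ _) ?_
    rw [analyticOrderAt_eq_zero.2 (Or.inr raceF_zero_ne)]
    exact ENat.zero_ne_top
  · exact fun h => by_contra fun h0 => h.1 (ha.analyticOrderAt_eq_zero.2 h0)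

theorem finite_mult_ne_zero (T : ℝ) : {t : ℝ | |t| < T ∧ t ≠ 0 ∧ mult t ≠ 0}.Finite := by
  classical
  obtain ⟨r, ⟨Z, -, hord, -⟩, hr⟩ := ((eventually_product_bounds differentiable_raceF
    raceF_zero_ne (fun η hη => exists_norm_raceF_le hη) (x := 0) le_rfl one_pos).and
      (eventually_ge_atTop (T ^ 2))).exists
  refine ((Z.toFinset.image (fun ρ => √‖ρ‖) ∪
    Z.toFinset.image fun ρ => -√‖ρ‖).finite_toSet).subset fun t ⟨ht, ht0, hm⟩ => ?_
  have hn : ‖(((-(t ^ 2) : ℝ) : ℂ))‖ = t ^ 2 := by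
    rw [norm_real, Real.norm_eq_abs, abs_neg, abs_of_nonneg (sq_nonneg t)]
  have hz : (((-(t ^ 2) : ℝ) : ℂ)) ∈ Z.toFinset := by
    rw [Multiset.mem_toFinset, ← Multiset.count_ne_zero, ← hord _ (hn.trans_le ?_), ← mult_eq ht0]
    · exact hm
    · exact (sq_le_sq' (abs_lt.1 ht).1.le (abs_lt.1 ht).2.le).trans hr
  rw [Finset.mem_coe, Finset.mem_union, Finset.mem_image, Finset.mem_image]
  rcases le_total 0 t with h | h
  · exact Or.inl ⟨_, hz, by rw [hn, Real.sqrt_sq h]⟩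
  · exact Or.inr ⟨_, hz, by rw [hn, ← neg_sq, Real.sqrt_sq (by linarith), neg_neg]⟩

theorem re_exp_div_onLine (t y : ℝ) :
    (exp (((t * y : ℝ) : ℂ) * I) / onLine t).re =
      (Real.cos (t * y) / 2 + t * Real.sin (t * y)) / (1 / 4 + t ^ 2) := by
  rw [Complex.div_re, Complex.normSq_apply, onLine_re, onLine_im, exp_ofReal_mul_I_re,
    exp_ofReal_mul_I_im]
  ring

/-- **The criterion**: no series with nonnegative coefficients has these limits. -/
theorem false_of_nonneg_series {b : ℕ → ℝ} {G : ℂ → ℂ} (h : IsNonnegSeries b G) {C₀ e : ℝ}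
    (he : |e| = 1) (hfree : ∀ z : ℂ, 1 / 2 < z.re → lChi z ≠ 0)
    (h0 : Tendsto (fun δ : ℝ => (δ : ℂ) * G (onLine 0 + δ)) (𝓝[>] 0) (𝓝 (C₀ : ℂ)))
    (hw : ∀ w : ℝ, w ≠ 0 → Tendsto (fun δ : ℝ => (δ : ℂ) * G (onLine w + δ)) (𝓝[>] 0)
      (𝓝 (-((e : ℂ) * mult w) / onLine w))) : False := by
  classical
  obtain ⟨R, hR⟩ : ∃ R : ℝ → ℂ,
      R = fun w => if w = 0 then (C₀ : ℂ) else -((e : ℂ) * mult w) / onLine w := ⟨_, rfl⟩
  have hpd : IsPosDef R := isPosDef_of_series h fun w => by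
    rw [hR]
    simp only
    split_ifs with hw0
    · rw [hw0]; exact h0
    · exact hw w hw0
  obtain ⟨M, hM⟩ := exists_sum_inv_le fun z hz => raceF_zero_neg hfree hz
  -- the sum of `m / (1 + t²)` over finitely many ordinates of one sign
  have hside : ∀ A : Finset ℝ, (∀ t ∈ A, t ≠ 0 ∧ mult t ≠ 0) →
      Set.InjOn (fun t : ℝ => t ^ 2) A → ∑ t ∈ A, (mult t : ℝ) / (1 + t ^ 2) ≤ M := by
    intro A hA hinj
    refine le_trans (le_of_eq ?_) (hM (A.image fun t => (((-(t ^ 2) : ℝ) : ℂ))) fun z hz => ?_)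
    · rw [Finset.sum_image fun a ha c hc h => hinj ha hc (by
        simpa only [ofReal_inj, neg_inj] using h)]
      refine Finset.sum_congr rfl fun t ht => ?_
      rw [mult_eq (hA t ht).1, norm_real, Real.norm_eq_abs, abs_neg, abs_of_nonneg (sq_nonneg t)]
    · obtain ⟨t, ht, rfl⟩ := Finset.mem_image.1 hz
      exact (raceF_eq_zero_iff (hA t ht).1).2 (hA t ht).2
  obtain ⟨K, hK⟩ : ∃ K, K = 4 * (|C₀| + 4 * |M|) + 2 * |M| := ⟨_, rfl⟩
  -- the count
  have hcount : ∀ T : ℝ, 1 ≤ T → ∀ A : Finset ℝ,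
      (∀ t ∈ A, 0 < t ∧ t ≤ T / 2 ∧ mult t ≠ 0) → ∑ t ∈ A, (mult t : ℝ) ≤ K * T := by
    intro T hT A hA
    have hT0 : 0 < T := by linarith
    obtain ⟨S, hS⟩ : ∃ S, S = (finite_mult_ne_zero T).toFinset := ⟨_, rfl⟩
    have hmem : ∀ t, t ∈ S ↔ |t| < T ∧ t ≠ 0 ∧ mult t ≠ 0 := fun t => by
      rw [hS, Set.Finite.mem_toFinset]; rfl
    have h0S : (0 : ℝ) ∉ S := fun h => ((hmem 0).1 h).2.1 rfl
    have hsum := hpd.trig_sum_nonneg hT0 (insert 0 S) (fun t ht hnot => by
      rw [Finset.mem_insert, not_or] at hnot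
      rw [hR]
      simp only [if_neg hnot.1]
      have : mult t = 0 := by_contra fun hm => hnot.2 ((hmem t).2 ⟨ht, hnot.1, hm⟩)
      simp [this]) (e / T)
    rw [Finset.sum_insert h0S] at hsum
    have hzero : tri T 0 * (exp (((0 * (e / T) : ℝ) : ℂ) * I) * R 0).re = C₀ := by
      simp [tri, hR]
    rw [hzero] at hsum
    obtain ⟨p, hp⟩ : ∃ p : ℝ → ℝ, p = fun t =>
        tri T t * (mult t) * (t * Real.sin (t / T)) / (1 / 4 + t ^ 2) := ⟨_, rfl⟩
    have hterm : ∀ t ∈ S, tri T t * (exp (((t * (e / T) : ℝ) : ℂ) * I) * R t).re + p t ≤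
        2 * ((mult t : ℝ) / (1 + t ^ 2)) := by
      intro t ht
      obtain ⟨h1, h2, -⟩ := (hmem t).1 ht
      have hesq : e * e = 1 := by rw [← abs_mul_abs_self, he, one_mul]
      have hre : (exp (((t * (e / T) : ℝ) : ℂ) * I) * R t).re =
          -(e * mult t) * (exp (((t * (e / T) : ℝ) : ℂ) * I) / onLine t).re := by
        rw [hR]
        simp only [if_neg h2]
        rw [show exp (((t * (e / T) : ℝ) : ℂ) * I) * (-((e : ℂ) * mult t) / onLine t) =
          ((-(e * mult t) : ℝ) : ℂ) * (exp (((t * (e / T) : ℝ) : ℂ) * I) / onLine t) by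
            push_cast; ring, re_ofReal_mul]
      have hsin : e * Real.sin (t * (e / T)) = Real.sin (t / T) := by
        rcases eq_or_eq_neg_of_abs_eq he with rfl | rfl
        · rw [one_mul, mul_one_div]
        · rw [neg_one_mul, neg_div, mul_neg, Real.sin_neg, neg_neg, mul_one_div]
      have htri : tri T t ≤ 1 ∧ 0 ≤ tri T t :=
        ⟨max_le zero_le_one (sub_le_self _ (by positivity)), le_max_left _ _⟩
      rw [hre, re_exp_div_onLine, hp]
      simp only
      obtain ⟨c, hc⟩ : ∃ c, c = Real.cos (t * (e / T)) := ⟨_, rfl⟩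
      have hc1 : -(e * c) ≤ 1 := by
        refine (neg_le_abs _).trans ?_
        rw [abs_mul, he, one_mul, hc]
        exact Real.abs_cos_le_one _
      rw [← hc, ← hsin]
      calc _ = tri T t * mult t * (-(e * c)) * (1 / (2 * (1 / 4 + t ^ 2))) := by
            field_simp
            ring
        _ ≤ 1 * mult t * 1 * (1 / (2 * (1 / 4 + t ^ 2))) := by
            refine mul_le_mul_of_nonneg_right ?_ (by positivity)
            exact (mul_le_mul_of_nonneg_left hc1 (mul_nonneg htri.2 (Nat.cast_nonneg _))).trans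
              (mul_le_mul_of_nonneg_right (mul_le_mul_of_nonneg_right htri.1 (Nat.cast_nonneg _))
                zero_le_one)
        _ ≤ _ := by
            rw [one_mul, mul_one, mul_one_div, mul_div_assoc', div_le_div_iff₀ (by positivity)
              (by positivity)]
            nlinarith [mul_nonneg (Nat.cast_nonneg (mult t) : (0 : ℝ) ≤ _) (sq_nonneg t)]
    have hinv : ∑ t ∈ S, (mult t : ℝ) / (1 + t ^ 2) ≤ 2 * |M| := by
      rw [← Finset.sum_filter_add_sum_filter_not S (fun t => 0 < t)]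
      have h1 := hside (S.filter fun t => 0 < t)
        (fun t ht => ((hmem t).1 (Finset.mem_filter.1 ht).1).2)
        fun a ha c hc hac => (sq_eq_sq₀ (Finset.mem_filter.1 ha).2.le
          (Finset.mem_filter.1 hc).2.le).1 hac
      have h2 := hside (S.filter fun t => ¬ 0 < t)
        (fun t ht => ((hmem t).1 (Finset.mem_filter.1 ht).1).2)
        fun a ha c hc hac => by
          have := (sq_eq_sq₀ (a := -a) (b := -c)
            (by linarith [not_lt.1 (Finset.mem_filter.1 ha).2])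
            (by linarith [not_lt.1 (Finset.mem_filter.1 hc).2])).1 (by simpa using hac)
          linarith
      linarith [le_abs_self M]
    have hs := Finset.sum_le_sum hterm
    rw [Finset.sum_add_distrib, ← Finset.mul_sum] at hs
    have hAS : A ⊆ S := fun t ht => by
      obtain ⟨h1, h2, h3⟩ := hA t ht
      exact (hmem t).2 ⟨by rw [abs_of_pos h1]; linarith, h1.ne', h3⟩
    have hp0 : ∀ t ∈ S, 0 ≤ p t := fun t ht => by
      obtain ⟨h1, -, -⟩ := (hmem t).1 ht
      have hx : |t / T| ≤ 1 := by rw [abs_div, abs_of_pos hT0, div_le_one hT0]; exact h1.le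
      obtain ⟨hl, hu⟩ := abs_le.1 hx
      rw [hp]
      simp only
      refine div_nonneg (mul_nonneg (mul_nonneg (le_max_left _ _) (Nat.cast_nonneg _)) ?_)
        (by positivity)
      rcases le_total 0 t with h | h
      · exact mul_nonneg h (Real.sin_nonneg_of_nonneg_of_le_pi (by positivity)
          (by linarith [Real.pi_gt_three]))
      · exact mul_nonneg_of_nonpos_of_nonpos h (Real.sin_nonpos_of_nonpos_of_neg_pi_le
          (div_nonpos_of_nonpos_of_nonneg h hT0.le) (by linarith [Real.pi_gt_three]))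
    have hlow : ∀ t ∈ A, (mult t : ℝ) - (mult t : ℝ) / (1 + t ^ 2) ≤ 4 * T * p t := by
      intro t ht
      obtain ⟨h1, h2, -⟩ := hA t ht
      have hx1 : t / T ≤ 1 / 2 := by rw [div_le_iff₀ hT0]; linarith
      have htri : 1 / 2 ≤ tri T t := by
        rw [tri, abs_of_pos h1]
        exact le_trans (by linarith) (le_max_right _ _)
      have hsin : t / (2 * T) ≤ Real.sin (t / T) := by
        refine le_trans ?_ (Real.mul_le_sin (by positivity) (by linarith [Real.pi_gt_three]))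
        rw [show t / (2 * T) = 1 / 2 * (t / T) by ring]
        refine mul_le_mul_of_nonneg_right ?_ (by positivity)
        rw [le_div_iff₀ Real.pi_pos]
        linarith [Real.pi_lt_four]
      rw [hp]
      simp only
      calc (mult t : ℝ) - (mult t : ℝ) / (1 + t ^ 2) = mult t * t ^ 2 / (1 + t ^ 2) := by
            field_simp; ring
        _ ≤ mult t * t ^ 2 / (1 / 4 + t ^ 2) :=
            div_le_div_of_nonneg_left (by positivity) (by positivity) (by linarith)
        _ = 4 * T * (1 / 2 * mult t * (t * (t / (2 * T))) / (1 / 4 + t ^ 2)) := by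
            field_simp; ring
        _ ≤ _ := by
            refine mul_le_mul_of_nonneg_left (div_le_div_of_nonneg_right ?_ (by positivity))
              (by positivity)
            exact mul_le_mul (mul_le_mul_of_nonneg_right htri (Nat.cast_nonneg _))
              (mul_le_mul_of_nonneg_left hsin h1.le) (by positivity)
              (mul_nonneg (le_max_left _ _) (Nat.cast_nonneg _))
    have h4 := Finset.sum_le_sum hlow
    rw [Finset.sum_sub_distrib, ← Finset.mul_sum] at h4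
    have h5 : ∑ t ∈ A, p t ≤ ∑ t ∈ S, p t :=
      Finset.sum_le_sum_of_subset_of_nonneg hAS fun t ht _ => hp0 t ht
    have h6 : ∑ t ∈ A, (mult t : ℝ) / (1 + t ^ 2) ≤ ∑ t ∈ S, (mult t : ℝ) / (1 + t ^ 2) :=
      Finset.sum_le_sum_of_subset_of_nonneg hAS fun t _ _ => by positivity
    have h7 : ∑ t ∈ S, p t ≤ |C₀| + 4 * |M| := by linarith [le_abs_self C₀]
    have h8 := mul_le_mul_of_nonneg_left (h5.trans h7) (by positivity : (0 : ℝ) ≤ 4 * T)
    rw [hK]
    nlinarith [abs_nonneg M]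
  obtain ⟨R', hR1, Z, hZ, hlt⟩ := exists_multSum_gt (2 * K)
  have hR0 : 1 ≤ √R' := Real.one_le_sqrt.2 hR1
  have hneg : ∀ z ∈ Z, z = (((-(√‖z‖ ^ 2) : ℝ) : ℂ)) ∧ z ≠ 0 := fun z hz => by
    obtain ⟨him, hre⟩ := raceF_zero_neg hfree (hZ z hz).2
    refine ⟨?_, fun h => by simp [h] at hre⟩
    rw [Real.sq_sqrt (norm_nonneg _)]
    have hz' : z = ((z.re : ℝ) : ℂ) := Complex.ext (by simp) (by simp [him])
    nth_rw 2 [hz']
    rw [norm_real, Real.norm_eq_abs, abs_of_neg hre, neg_neg]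
    exact hz'
  have hinj : Set.InjOn (fun z : ℂ => √‖z‖) Z := fun a ha c hc h => by
    rw [(hneg a ha).1, (hneg c hc).1]
    simp only at h
    rw [h]
  have hc2 := hcount (2 * √R') (by linarith) (Z.image fun z => √‖z‖) fun t ht => by
    obtain ⟨z, hz, rfl⟩ := Finset.mem_image.1 ht
    have hpos : 0 < √‖z‖ := Real.sqrt_pos.2 (norm_pos_iff.2 (hneg z hz).2)
    refine ⟨hpos, by linarith [Real.sqrt_le_sqrt (hZ z hz).1], ?_⟩
    exact (raceF_eq_zero_iff hpos.ne').1 ((hneg z hz).1 ▸ (hZ z hz).2)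
  rw [Finset.sum_image hinj] at hc2
  refine absurd hlt (not_lt.2 (le_trans (le_of_eq ?_) (hc2.trans (by linarith))))
  refine Finset.sum_congr rfl fun z hz => ?_
  rw [mult_eq (Real.sqrt_pos.2 (norm_pos_iff.2 (hneg z hz).2)).ne', ← (hneg z hz).1]

end FA.PrimeRaceLittlewood

end
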