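import Fermat.Agent.PrimeRaceLittlewood.Product

/-!
# More than `K T` zeros of `L (s, χ₄)` up to height `T`

If the zeros `z` of `raceF` with `‖z‖ ≤ R` were `O (√R)` in number, `∏ (1 + x / ‖z‖)` would be
`exp (O (√x))`, which is less than `raceF x`.
-/

set_option autoImplicit false

noncomputable section

namespace FA.PrimeRaceLittlewood

open Complex Filter Topology
open FA.PrimeRace (lChi differentiable_lChi lChi_ne_zero_of_one_le_re lChi_real_ne_zero)

theorem log_one_add_le {u : ℝ} (hu : 0 ≤ u) : Real.log (1 + u) ≤ 4 * √(√u) := by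
  obtain ⟨v, hv⟩ : ∃ v, v = √(√u) := ⟨_, rfl⟩
  have hv0 : 0 ≤ v := hv ▸ Real.sqrt_nonneg _
  have hv4 : v ^ 4 = u := by
    rw [hv, show (4 : ℕ) = 2 * 2 by rfl, pow_mul, Real.sq_sqrt (Real.sqrt_nonneg _),
      Real.sq_sqrt hu]
  have h1 : 1 + u ≤ (1 + v) ^ 4 := by
    rw [← hv4]
    nlinarith [mul_nonneg hv0 (sq_nonneg v), sq_nonneg v]
  rw [← hv]
  refine (Real.log_le_log (by linarith) h1).trans ?_
  rw [Real.log_pow]
  push_cast
  linarith [Real.log_le_sub_one_of_pos (show 0 < 1 + v by linarith)]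

theorem sum_map_indicator (T : Multiset ℝ) (y c : ℝ) :
    (T.map fun t => if t ≤ y then c else 0).sum = c * (T.countP fun t => t ≤ y) := by
  induction T using Multiset.induction_on with
  | empty => simp
  | cons a T ih =>
    rw [Multiset.map_cons, Multiset.sum_cons, ih, Multiset.countP_cons]
    split_ifs <;> push_cast <;> ring

/-- `O (√R)` terms up to `R` make `∑ log (1 + x / t)` be `O (√x)`. -/
theorem exists_sum_log_le : ∃ C : ℝ, ∀ (K x : ℝ) (T : Multiset ℝ), 0 < x → 0 ≤ K →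
    (∀ t ∈ T, 0 < t) → (∀ R : ℝ, 0 < R → (T.countP (fun t => t ≤ R) : ℝ) ≤ K * √R) →
    (T.map fun t => Real.log (1 + x / t)).sum ≤ C * K * √x := by
  obtain ⟨q, hq⟩ : ∃ q, q = √(√2) := ⟨_, rfl⟩
  have hq1 : 1 < q := by
    rw [hq, Real.lt_sqrt zero_le_one, one_pow, Real.lt_sqrt zero_le_one]; norm_num
  have hq2 : q * q = √2 := by rw [hq, Real.mul_self_sqrt (Real.sqrt_nonneg _)]
  have hs2 : 1 < √2 := by rw [Real.lt_sqrt zero_le_one]; norm_num
  refine ⟨4 * q * (1 - q⁻¹)⁻¹ + √2 * (1 - (√2)⁻¹)⁻¹, fun K x T hx hK hT hcount => ?_⟩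
  obtain ⟨J, hJ⟩ : ∃ J : ℕ, ∀ t ∈ T, x / t < 2 ^ J ∧ t / x < 2 ^ J := by
    have h := (Finset.eventually_all T.toFinset
      (p := fun t (J : ℕ) => x / t < (2 : ℝ) ^ J ∧ t / x < (2 : ℝ) ^ J)).2 fun t _ =>
        ((tendsto_pow_atTop_atTop_of_one_lt one_lt_two).eventually_gt_atTop (x / t)).and
          ((tendsto_pow_atTop_atTop_of_one_lt one_lt_two).eventually_gt_atTop (t / x))
    obtain ⟨J, hJ⟩ := h.exists
    exact ⟨J, fun t ht => hJ t (Multiset.mem_toFinset.2 ht)⟩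
  obtain ⟨lo, hlo⟩ : ∃ lo : ℕ → ℝ → ℝ, lo = fun n t =>
      if t ≤ x / 2 ^ n then 4 * q ^ (n + 1) else 0 := ⟨_, rfl⟩
  obtain ⟨hi, hhi⟩ : ∃ hi : ℕ → ℝ → ℝ, hi = fun n t =>
      if t ≤ x * 2 ^ (n + 1) then ((2 : ℝ) ^ n)⁻¹ else 0 := ⟨_, rfl⟩
  have hlo0 : ∀ n t, 0 ≤ lo n t := fun n t => by
    simp only [hlo]; split_ifs <;> positivity
  have hhi0 : ∀ n t, 0 ≤ hi n t := fun n t => by
    simp only [hhi]; split_ifs <;> positivity
  have hpt : ∀ t ∈ T, Real.log (1 + x / t) ≤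
      ∑ n ∈ Finset.range J, (lo n t + hi n t) := by
    intro t ht
    have ht0 := hT t ht
    rcases le_total t x with h | h
    · obtain ⟨n, hn1, hn2⟩ := exists_nat_pow_near (x := x / t) (y := (2 : ℝ))
        (by rwa [one_le_div ht0]) one_lt_two
      have hnJ : n < J := (pow_lt_pow_iff_right₀ one_lt_two).1 (hn1.trans_lt (hJ t ht).1)
      refine le_trans ?_ (Finset.single_le_sum (f := fun n => lo n t + hi n t)
        (fun n _ => add_nonneg (hlo0 n t) (hhi0 n t)) (Finset.mem_range.2 hnJ))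
      refine le_trans ?_ (le_add_of_nonneg_right (hhi0 n t))
      simp only [hlo]
      rw [if_pos (by rw [le_div_iff₀ (by positivity)]; rw [le_div_iff₀ ht0] at hn1; linarith)]
      refine (log_one_add_le (by positivity)).trans (mul_le_mul_of_nonneg_left ?_ (by norm_num))
      refine (Real.sqrt_le_sqrt (Real.sqrt_le_sqrt hn2.le)).trans_eq ?_
      rw [hq, show (2 : ℝ) ^ (n + 1) = (q ^ (n + 1)) ^ 4 by
        rw [← pow_mul, mul_comm, pow_mul, show q ^ 4 = (q * q) * (q * q) by ring, hq2,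
          Real.mul_self_sqrt zero_le_two], ← hq,
        show (q ^ (n + 1)) ^ 4 = ((q ^ (n + 1)) ^ 2) ^ 2 by ring,
        Real.sqrt_sq (by positivity), Real.sqrt_sq (by positivity)]
    · obtain ⟨n, hn1, hn2⟩ := exists_nat_pow_near (x := t / x) (y := (2 : ℝ))
        (by rwa [one_le_div hx]) one_lt_two
      have hnJ : n < J := (pow_lt_pow_iff_right₀ one_lt_two).1 (hn1.trans_lt (hJ t ht).2)
      refine le_trans ?_ (Finset.single_le_sum (f := fun n => lo n t + hi n t)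
        (fun n _ => add_nonneg (hlo0 n t) (hhi0 n t)) (Finset.mem_range.2 hnJ))
      refine le_trans ?_ (le_add_of_nonneg_left (hlo0 n t))
      simp only [hhi]
      rw [div_lt_iff₀ hx] at hn2
      rw [if_pos (by linarith)]
      refine (Real.log_le_sub_one_of_pos (by positivity)).trans ?_
      rw [add_sub_cancel_left, ← inv_div]
      exact inv_anti₀ (by positivity) hn1
  have hgeo : ∀ r : ℝ, 0 ≤ r → r < 1 → ∑ n ∈ Finset.range J, r ^ n ≤ (1 - r)⁻¹ := fun r h0 h1 =>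
    ((summable_geometric_of_lt_one h0 h1).sum_le_tsum _ fun n _ => by positivity).trans_eq
      (tsum_geometric_of_lt_one h0 h1)
  calc (T.map fun t => Real.log (1 + x / t)).sum
      ≤ (T.map fun t => ∑ n ∈ Finset.range J, (lo n t + hi n t)).sum :=
        Multiset.sum_map_le_sum_map _ _ hpt
    _ = ∑ n ∈ Finset.range J, ((T.map (lo n)).sum + (T.map (hi n)).sum) := by
        simp only [Multiset.sum_map_sum, Multiset.sum_map_add]
    _ ≤ ∑ n ∈ Finset.range J,
          (4 * q * (K * √x) * q⁻¹ ^ n + √2 * (K * √x) * (√2)⁻¹ ^ n) := by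
        refine Finset.sum_le_sum fun n _ => add_le_add ?_ ?_
        · simp only [hlo]
          rw [sum_map_indicator]
          refine (mul_le_mul_of_nonneg_left (hcount _ (by positivity)) (by positivity)).trans_eq ?_
          rw [Real.sqrt_div hx.le, show (2 : ℝ) ^ n = (q ^ n * q ^ n) * (q ^ n * q ^ n) by
            rw [← mul_pow, ← mul_pow, hq2, Real.mul_self_sqrt zero_le_two],
            Real.sqrt_mul_self (by positivity), inv_pow, pow_succ]
          field_simp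
        · simp only [hhi]
          rw [sum_map_indicator]
          refine (mul_le_mul_of_nonneg_left (hcount _ (by positivity)) (by positivity)).trans_eq ?_
          rw [Real.sqrt_mul hx.le, show (2 : ℝ) ^ (n + 1) = (√2 ^ (n + 1)) * (√2 ^ (n + 1)) by
            rw [← mul_pow, Real.mul_self_sqrt zero_le_two],
            Real.sqrt_mul_self (by positivity),
            show (2 : ℝ) ^ n = √2 ^ n * √2 ^ n by rw [← mul_pow, Real.mul_self_sqrt zero_le_two],
            inv_pow, pow_succ]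
          field_simp
    _ = 4 * q * (K * √x) * ∑ n ∈ Finset.range J, q⁻¹ ^ n +
          √2 * (K * √x) * ∑ n ∈ Finset.range J, (√2)⁻¹ ^ n := by
        rw [Finset.mul_sum, Finset.mul_sum, Finset.sum_add_distrib]
    _ ≤ 4 * q * (K * √x) * (1 - q⁻¹)⁻¹ + √2 * (K * √x) * (1 - (√2)⁻¹)⁻¹ :=
        add_le_add
          (mul_le_mul_of_nonneg_left (hgeo _ (by positivity) (inv_lt_one_of_one_lt₀ hq1))
            (by positivity))
          (mul_le_mul_of_nonneg_left (hgeo _ (by positivity) (inv_lt_one_of_one_lt₀ hs2))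
            (by positivity))
    _ = _ := by ring

theorem raceF_zero_data {z : ℂ} (h : raceF z = 0) :
    z ≠ 0 ∧ lChi (1 / 2 + z ^ (1 / 2 : ℂ)) = 0 ∧
      0 ≤ (z ^ (1 / 2 : ℂ)).re ∧ (z ^ (1 / 2 : ℂ)).re < 1 / 2 := by
  have hz : z ≠ 0 := fun e => raceF_zero_ne (e ▸ h)
  obtain ⟨w, hw⟩ : ∃ w, w = z ^ (1 / 2 : ℂ) := ⟨_, rfl⟩
  have hre : 0 ≤ w.re := by
    rw [hw, cpow_def_of_ne_zero hz, Complex.exp_re]
    refine mul_nonneg (Real.exp_pos _).le (Real.cos_nonneg_of_neg_pi_div_two_le_of_le ?_ ?_)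
    · have := Complex.neg_pi_lt_arg z
      simp [Complex.log_im]
      linarith
    · have := Complex.arg_le_pi z
      simp [Complex.log_im]
      linarith
  rw [raceF, ← hw, xiChi, completed_eq (by simp; linarith), mul_eq_zero,
    or_iff_right (Complex.exp_ne_zero _), mul_eq_zero,
    or_iff_right (Gammaℝ_ne_zero_of_re_pos (by simp; linarith))] at h
  rw [← hw]
  refine ⟨hz, h, hre, ?_⟩
  by_contra hc
  exact lChi_ne_zero_of_one_le_re (s := 1 / 2 + w) (by simp; linarith) h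

theorem analyticOrderNatAt_lChi {w : ℂ} (hw : w ≠ 0) (hre : -1 / 2 < w.re) :
    analyticOrderNatAt lChi (1 / 2 + w) = analyticOrderNatAt raceF (w ^ 2) := by
  have hsq : AnalyticAt ℂ (fun v : ℂ => v ^ 2) w := analyticAt_id.pow 2
  have hxi : analyticOrderAt xiChi w = analyticOrderAt raceF (w ^ 2) := by
    rw [← analyticOrderAt_comp_of_deriv_ne_zero (f := raceF) hsq (by simp [hw]),
      show raceF ∘ (fun v : ℂ => v ^ 2) = xiChi from funext raceF_sq]
  obtain ⟨u, hu⟩ : ∃ u : ℂ → ℂ, u = fun v =>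
      cexp (v * (Real.log 2 : ℂ)) * Gammaℝ (1 / 2 + v + 1) := ⟨_, rfl⟩
  have hopen : IsOpen {v : ℂ | -1 < (1 / 2 + v).re} :=
    isOpen_lt continuous_const (by fun_prop)
  have hmem : -1 < (1 / 2 + w).re := by simp; linarith
  have hua : AnalyticAt ℂ u w := by
    refine DifferentiableOn.analyticAt (s := {v | -1 < (1 / 2 + v).re}) (fun v hv => ?_)
      (hopen.mem_nhds hmem)
    rw [hu]
    refine DifferentiableAt.differentiableWithinAt (DifferentiableAt.mul (by fun_prop) ?_)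
    have hG : ∀ s : ℂ, 0 < s.re → DifferentiableAt ℂ Gammaℝ s := fun s hs => by
      simpa only [Pi.inv_apply, inv_inv] using (Complex.differentiable_Gammaℝ_inv s).fun_inv
        (inv_ne_zero (Gammaℝ_ne_zero_of_re_pos hs))
    exact (hG _ (by
      have : -1 < (1 / 2 + v).re := hv
      simp at this ⊢; linarith)).fun_comp' v (f := fun v : ℂ => 1 / 2 + v + 1) (by fun_prop)
  have hu0 : u w ≠ 0 := by
    rw [hu]
    exact mul_ne_zero (Complex.exp_ne_zero _) (Gammaℝ_ne_zero_of_re_pos (by simp; linarith))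
  have hsh : AnalyticAt ℂ (fun v : ℂ => 1 / 2 + v) w := analyticAt_const.add analyticAt_id
  have hLa : AnalyticAt ℂ (fun v => lChi (1 / 2 + v)) w :=
    (differentiable_lChi.differentiableOn.analyticAt univ_mem).comp hsh
  have hL : analyticOrderAt (fun v => lChi (1 / 2 + v)) w = analyticOrderAt lChi (1 / 2 + w) :=
    analyticOrderAt_comp_of_deriv_ne_zero (f := lChi) hsh (by simp)
  have heq : xiChi =ᶠ[𝓝 w] u * fun v => lChi (1 / 2 + v) := by
    filter_upwards [hopen.mem_nhds hmem] with v hv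
    rw [xiChi, completed_eq hv, Pi.mul_apply, hu]
    ring
  rw [analyticOrderAt_congr heq, analyticOrderAt_mul hua hLa,
    hua.analyticOrderAt_eq_zero.2 hu0, zero_add, hL] at hxi
  rw [analyticOrderNatAt, analyticOrderNatAt, hxi]

/-- The number of zeros with multiplicity in a finite set. -/
def multSum (S : Finset ℂ) : ℝ := ∑ z ∈ S, (analyticOrderNatAt raceF z : ℝ)

/-- **The zeros of `raceF` are not `O (√R)`.** -/
theorem exists_multSum_gt (K : ℝ) : ∃ R : ℝ, 1 ≤ R ∧ ∃ S : Finset ℂ,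
    (∀ z ∈ S, ‖z‖ ≤ R ∧ raceF z = 0) ∧ K * √R < multSum S := by
  classical
  by_contra hno
  push Not at hno
  obtain ⟨a, ha, hfree⟩ := Metric.eventually_nhds_iff.1
    (differentiable_raceF.continuous.continuousAt.eventually_ne raceF_zero_ne)
  obtain ⟨K', hK'⟩ : ∃ K', K' = max K 0 * (1 + 1 / √(min a 1)) := ⟨_, rfl⟩
  have ha1 : 0 < min a 1 := lt_min ha one_pos
  have hK0 : 0 ≤ K' := hK' ▸ by positivity
  obtain ⟨C, hC⟩ := exists_sum_log_le
  obtain ⟨A, hA⟩ : ∃ A, A = C * K' + |Real.log ‖raceF 0‖| + 1 := ⟨_, rfl⟩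
  obtain ⟨σ, hσ1, hσ⟩ := exists_large_value A
  obtain ⟨r, Z, hZ, hord, hup, -⟩ := (eventually_product_bounds differentiable_raceF raceF_zero_ne
    (fun η hη => exists_norm_raceF_le hη) (x := σ ^ 2) (sq_nonneg σ) one_pos).exists
  have hf0 : 0 < ‖raceF 0‖ := norm_pos_iff.2 raceF_zero_ne
  have hbound : ∀ R : ℝ, 0 < R →
      ((Z.map fun ρ => ‖ρ‖).countP (fun t => t ≤ R) : ℝ) ≤ K' * √R := by
    intro R hR
    obtain ⟨S, hS⟩ : ∃ S : Finset ℂ, S = Z.toFinset.filter fun ρ => ‖ρ‖ ≤ R := ⟨_, rfl⟩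
    have hmem : ∀ z ∈ S, z ∈ Z ∧ ‖z‖ ≤ R := fun z hz => by
      rw [hS, Finset.mem_filter, Multiset.mem_toFinset] at hz
      exact hz
    have hcard : ((Z.map fun ρ => ‖ρ‖).countP (fun t => t ≤ R) : ℝ) = multSum S := by
      rw [Multiset.countP_map, ← Multiset.toFinset_sum_count_eq, multSum,
        Multiset.toFinset_filter, ← hS, Nat.cast_sum]
      refine Finset.sum_congr rfl fun z hz => ?_
      rw [Multiset.count_filter, if_pos (hmem z hz).2, hord z (hZ z (hmem z hz).1).1]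
    rw [hcard]
    rcases lt_or_ge R (min a 1) with h | h
    · have hSe : S = ∅ := Finset.eq_empty_of_forall_notMem fun z hz =>
        hfree (by rw [dist_zero_right]; linarith [(hmem z hz).2, min_le_left a 1])
          (hZ z (hmem z hz).1).2.2
      rw [hSe, multSum, Finset.sum_empty]
      positivity
    have hb := hno (max R 1) (le_max_right _ _) S fun z hz =>
      ⟨(hmem z hz).2.trans (le_max_left _ _), (hZ z (hmem z hz).1).2.2⟩
    refine hb.trans ((mul_le_mul_of_nonneg_right (le_max_left K 0) (Real.sqrt_nonneg _)).trans ?_)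
    rw [hK', mul_assoc]
    refine mul_le_mul_of_nonneg_left ?_ (le_max_right _ _)
    have hs : 0 < √(min a 1) := Real.sqrt_pos.2 ha1
    have hsR : √(min a 1) ≤ √R := Real.sqrt_le_sqrt h
    have h1 : 1 ≤ 1 / √(min a 1) * √R := by
      rw [one_div_mul_eq_div, one_le_div hs]; exact hsR
    rcases le_total R 1 with hR1 | hR1
    · rw [max_eq_right hR1, Real.sqrt_one, add_mul]
      linarith [Real.sqrt_nonneg R]
    · rw [max_eq_left hR1, add_mul]
      linarith
  have hpos : ∀ t ∈ Z.map fun ρ => ‖ρ‖, 0 < t := fun t ht => by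
    obtain ⟨ρ, hρ, rfl⟩ := Multiset.mem_map.1 ht
    exact norm_pos_iff.2 (hZ ρ hρ).2.1
  have hlog := hC K' (σ ^ 2) _ (by positivity) hK0 hpos hbound
  rw [Real.sqrt_sq (by linarith), Multiset.map_map] at hlog
  have hprod : (Z.map fun ρ => 1 + σ ^ 2 / ‖ρ‖).prod ≤ Real.exp (C * K' * σ) := by
    refine le_trans (le_of_eq ?_) (Real.exp_le_exp.2 hlog)
    rw [Real.exp_multiset_sum, Multiset.map_map]
    refine congrArg Multiset.prod (Multiset.map_congr rfl fun ρ hρ => ?_)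
    have := norm_pos_iff.2 (hZ ρ hρ).2.1
    simp only [Function.comp_apply]
    rw [Real.exp_log (by positivity)]
  have hlast : ‖raceF ((σ : ℂ) ^ 2)‖ ≤ Real.exp (A * σ) := by
    rw [← ofReal_pow]
    refine hup.trans ((mul_le_mul_of_nonneg_right (mul_le_mul_of_nonneg_left hprod hf0.le)
      (Real.exp_pos _).le).trans ?_)
    nth_rw 1 [← Real.exp_log hf0]
    rw [← Real.exp_add, ← Real.exp_add, hA]
    refine Real.exp_le_exp.2 ?_
    nlinarith [le_abs_self (Real.log ‖raceF 0‖), abs_nonneg (Real.log ‖raceF 0‖)]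
  linarith

/-- **More than `K T` zeros of `L (s, χ₄)` in the strip up to height `T`.** -/
theorem exists_zeros_gt (K : ℝ) : ∃ T : ℝ, 1 ≤ T ∧ ∃ S : Finset ℂ,
    (∀ ρ ∈ S, lChi ρ = 0 ∧ 0 < ρ.re ∧ ρ.re < 1 ∧ |ρ.im| ≤ T) ∧
      K * T < ∑ ρ ∈ S, (analyticOrderNatAt lChi ρ : ℝ) := by
  classical
  obtain ⟨R, hR, S, hS, hlt⟩ := exists_multSum_gt K
  obtain ⟨m, hm⟩ : ∃ m : ℂ → ℂ, m = fun z => 1 / 2 + z ^ (1 / 2 : ℂ) := ⟨_, rfl⟩
  have hinj : Function.Injective m := fun a b h => by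
    simp only [hm, add_right_inj] at h
    rw [← sqrt_sq a, h, sqrt_sq]
  refine ⟨√R, Real.one_le_sqrt.2 hR, S.image m, fun ρ hρ => ?_, ?_⟩
  · obtain ⟨z, hz, rfl⟩ := Finset.mem_image.1 hρ
    obtain ⟨hR', h0⟩ := hS z hz
    obtain ⟨-, hL, h1, h2⟩ := raceF_zero_data h0
    simp only [hm]
    refine ⟨hL, by simp; linarith, by simp; linarith, ?_⟩
    refine le_trans ?_ ((norm_sqrt z).le.trans (Real.sqrt_le_sqrt hR'))
    simpa using Complex.abs_im_le_norm (z ^ (1 / 2 : ℂ))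
  · rw [Finset.sum_image hinj.injOn]
    refine hlt.trans_le (le_of_eq (Finset.sum_congr rfl fun z hz => ?_))
    obtain ⟨hz0, -, h1, -⟩ := raceF_zero_data (hS z hz).2
    have hw : z ^ (1 / 2 : ℂ) ≠ 0 := fun e => hz0 (by rw [← sqrt_sq z, e]; simp)
    rw [hm, analyticOrderNatAt_lChi hw (by linarith), sqrt_sq]

/-- With all zeros on the negative axis `∑ m / (1 + ‖z‖)` is bounded. -/
theorem exists_sum_inv_le (hneg : ∀ z : ℂ, raceF z = 0 → z.im = 0 ∧ z.re < 0) :
    ∃ M : ℝ, ∀ S : Finset ℂ, (∀ z ∈ S, raceF z = 0) →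
      ∑ z ∈ S, (analyticOrderNatAt raceF z : ℝ) / (1 + ‖z‖) ≤ M := by
  classical
  refine ⟨‖raceF 1‖ * Real.exp 1 / ‖raceF 0‖, fun S hS => ?_⟩
  obtain ⟨r, ⟨Z, hZ, hord, -, hlow⟩, hr⟩ := ((eventually_product_bounds differentiable_raceF
    raceF_zero_ne (fun η hη => exists_norm_raceF_le hη) (x := 1) zero_le_one one_pos).and
      (eventually_ge_atTop (∑ z ∈ S, ‖z‖))).exists
  have hf0 : 0 < ‖raceF 0‖ := norm_pos_iff.2 raceF_zero_ne
  have hsum : ∑ z ∈ S, (analyticOrderNatAt raceF z : ℝ) / (1 + ‖z‖) ≤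
      (Z.map fun ρ => 1 / (1 + ‖ρ‖)).sum := by
    have hnorm : ∀ z ∈ S, ‖z‖ ≤ r := fun z hz =>
      (Finset.single_le_sum (f := fun z => ‖z‖) (fun z _ => norm_nonneg z) hz).trans hr
    rw [Finset.sum_multiset_map_count]
    have e : ∀ z ∈ S, (analyticOrderNatAt raceF z : ℝ) / (1 + ‖z‖) =
        Z.count z • (1 / (1 + ‖z‖)) := fun z hz => by
      rw [hord z (hnorm z hz), nsmul_eq_mul, mul_one_div]
    rw [Finset.sum_congr rfl e, ← Finset.sum_filter_of_ne (p := fun z => z ∈ Z.toFinset)]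
    · exact Finset.sum_le_sum_of_subset_of_nonneg (fun z hz => (Finset.mem_filter.1 hz).2)
        fun z _ _ => by positivity
    · intro z _ hne
      rw [Multiset.mem_toFinset]
      by_contra h
      exact hne (by rw [Multiset.count_eq_zero.2 h, zero_smul])
  refine hsum.trans (((lt_add_one _).le.trans (Real.add_one_le_exp _)).trans ?_)
  rw [le_div_iff₀ hf0, Real.exp_multiset_sum, Multiset.map_map]
  have hp : (Z.map fun ρ => Real.exp (1 / (1 + ‖ρ‖))).prod ≤
      (Z.map fun ρ => ‖((1 : ℝ) : ℂ) - ρ‖ / ‖ρ‖).prod := by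
    refine Multiset.prod_map_le_prod_map₀ _ _ (fun ρ _ => (Real.exp_pos _).le) fun ρ hρ => ?_
    obtain ⟨-, hρ0, hz⟩ := hZ ρ hρ
    obtain ⟨him, hre⟩ := hneg ρ hz
    have hb := norm_pos_iff.2 hρ0
    have hρe : ρ = ((ρ.re : ℝ) : ℂ) := Complex.ext (by simp) (by simp [him])
    have hb' : ‖ρ‖ = -ρ.re := by rw [hρe, norm_real, Real.norm_eq_abs, abs_of_neg hre]; simp
    have hn : ‖((1 : ℝ) : ℂ) - ρ‖ = 1 + ‖ρ‖ := by
      rw [hb', hρe, ← ofReal_sub, norm_real, Real.norm_eq_abs, abs_of_pos (by linarith)]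
      simp
      ring
    rw [hn]
    refine (Real.exp_bound_div_one_sub_of_interval (by positivity) ?_).trans (le_of_eq ?_)
    · rw [div_lt_one (by positivity)]; linarith
    · field_simp
      ring_nf
      rw [mul_inv_cancel₀ hb.ne']
  rw [Real.exp_neg] at hlow
  have h1 := mul_le_mul_of_nonneg_left hp hf0.le
  have h2 : ‖raceF 0‖ * (Z.map fun ρ => ‖((1 : ℝ) : ℂ) - ρ‖ / ‖ρ‖).prod ≤
      ‖raceF ((1 : ℝ) : ℂ)‖ * Real.exp 1 := by
    rwa [mul_inv_le_iff₀ (Real.exp_pos 1)] at hlow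
  push_cast at h1 h2
  rw [mul_comm]
  exact h1.trans h2

end FA.PrimeRaceLittlewood

end
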