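import Fermat.Agent.PrimeRaceLittlewood.Xi
import Fermat.Agent.RiemannMangoldt.Factor

/-!
# Two-sided comparison with the product over the zeros of a large disc

For `p` fixed and `r` large, `‖F p‖ / ‖F 0‖` is `∏ ‖p - ρ‖ / ‖ρ‖` over the zeros with `‖ρ‖ ≤ r`,
up to factors tending to `1` (Borel–Carathéodory and the reflection in the circle of radius `2 r`).
-/

set_option autoImplicit false

noncomputable section

namespace FA.PrimeRaceLittlewood

open Complex Filter Topology Metric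
open FA.RiemannMangoldt (rootProd mirrorProd exists_factor norm_mirrorProd mirrorProd_zero)
open scoped ComplexConjugate

/-- **The comparison**, for an entire `f` of growth `exp (o |z|)` and any point `p`. -/
theorem eventually_product_exact {f : ℂ → ℂ} (hf : Differentiable ℂ f) (h0 : f 0 ≠ 0)
    (hgr : ∀ η : ℝ, 0 < η → ∃ G : ℝ, ∀ z : ℂ, ‖f z‖ ≤ Real.exp (η * ‖z‖ + G))
    (p : ℂ) {ε : ℝ} (hε : 0 < ε) :
    ∀ᶠ r : ℝ in atTop, ∃ Z : Multiset ℂ, (∀ ρ ∈ Z, ‖ρ‖ ≤ r ∧ ρ ≠ 0 ∧ f ρ = 0) ∧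
      (∀ z : ℂ, ‖z‖ ≤ r → analyticOrderNatAt f z = Z.count z) ∧
      ‖f p‖ ≤ ‖f 0‖ * (Z.map fun ρ => ‖p - ρ‖ / ‖ρ‖).prod * Real.exp ε ∧
      ‖f 0‖ * (Z.map fun ρ => ‖p - ρ‖ / ‖ρ‖).prod * Real.exp (-ε) ≤ ‖f p‖ := by
  obtain ⟨x, hxp⟩ : ∃ x, x = ‖p‖ := ⟨_, rfl⟩
  have hx : 0 ≤ x := hxp ▸ norm_nonneg p
  obtain ⟨η, hη⟩ : ∃ η, η = ε / (32 * (x + 1)) := ⟨_, rfl⟩
  have hη0 : 0 < η := hη ▸ by positivity
  obtain ⟨G, hG⟩ := hgr η hη0
  obtain ⟨G', hG'⟩ : ∃ G', G' = |G| + |Real.log ‖f 0‖| + 1 := ⟨_, rfl⟩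
  have hG1 : 1 ≤ G' := by rw [hG']; linarith [abs_nonneg G, abs_nonneg (Real.log ‖f 0‖)]
  filter_upwards [eventually_ge_atTop (4 * x + 1), eventually_ge_atTop (G' / η)] with r hr hrG
  have hr0 : 0 < r := by linarith
  rw [div_le_iff₀ hη0] at hrG
  obtain ⟨B, hB⟩ : ∃ B, B = Real.exp (2 * η * r + G') := ⟨_, rfl⟩
  have hlB : Real.log B ≤ 3 * η * r := by
    rw [hB, Real.log_exp]
    linarith
  have hB1 : 1 < B := hB ▸ Real.one_lt_exp_iff.2 (by positivity)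
  have hf0 : 0 < ‖f 0‖ := norm_pos_iff.2 h0
  have hb : ∀ z ∈ sphere (0 : ℂ) (2 * r), ‖f z‖ ≤ B * ‖f 0‖ := fun z hz => by
    refine (hG z).trans ?_
    rw [mem_sphere_zero_iff_norm.1 hz, hB]
    nth_rw 1 [← Real.exp_log hf0]
    rw [← Real.exp_add]
    refine Real.exp_le_exp.2 ?_
    rw [hG']
    linarith [le_abs_self G, neg_le_abs (Real.log ‖f 0‖), mul_comm η (2 * r)]
  obtain ⟨Z, h, hh, he, hZ, hne, hk, hord⟩ :=
    exists_factor isOpen_univ (Set.subset_univ _) hr0 (by linarith) hf.differentiableOn h0 hb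
  have hZ0 : ∀ ρ ∈ Z, f ρ = 0 := fun ρ hρ => by
    rw [he ρ, mul_eq_zero_iff_right (hne ρ (hZ ρ hρ)), rootProd, Multiset.prod_eq_zero_iff,
      Multiset.mem_map]
    exact ⟨ρ, hρ, sub_self ρ⟩
  have hρ0 : ∀ ρ ∈ Z, ρ ≠ 0 := fun ρ hρ e => h0 (e ▸ hZ0 ρ hρ)
  have hρr : ∀ ρ ∈ Z, ‖ρ‖ ≤ r := fun ρ hρ => mem_closedBall_zero_iff.1 (hZ ρ hρ)
  refine ⟨Z, fun ρ hρ => ⟨hρr ρ hρ, hρ0 ρ hρ, hZ0 ρ hρ⟩,
    fun z hz => hord z (mem_closedBall_zero_iff.2 hz), ?_⟩
  obtain ⟨k, hkdef⟩ : ∃ k : ℕ, k = Multiset.card Z := ⟨_, rfl⟩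
  have hkl : (k : ℝ) ≤ 6 * η * r := by
    have h1 := Real.log_le_log (by positivity) hk
    rw [Real.log_pow, mul_div_cancel_right₀ _ hr0.ne', ← hkdef] at h1
    nlinarith [Real.log_two_gt_d9, (Nat.cast_nonneg k : (0 : ℝ) ≤ k)]
  -- the reflected function
  obtain ⟨g, hg⟩ : ∃ g : ℂ → ℂ, g = fun z => mirrorProd (2 * r) Z z * h z := ⟨_, rfl⟩
  have hgd : DifferentiableOn ℂ g Set.univ := hg ▸
    (FA.RiemannMangoldt.differentiable_mirrorProd (2 * r) Z).differentiableOn.mul hh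
  have hden : ∀ ρ ∈ Z, ∀ z : ℂ, ‖z‖ ≤ r → 0 < ‖((2 * r : ℝ) : ℂ) ^ 2 - conj ρ * z‖ := by
    intro ρ hρ z hz
    have h1 := norm_sub_norm_le (((2 * r : ℝ) : ℂ) ^ 2) (conj ρ * z)
    rw [norm_pow, norm_real, Real.norm_of_nonneg (by positivity), norm_mul, RCLike.norm_conj] at h1
    nlinarith [hρr ρ hρ, norm_nonneg ρ, norm_nonneg z]
  have hgne : ∀ z ∈ ball (0 : ℂ) r, g z ≠ 0 := fun z hz => by
    rw [hg]
    refine mul_ne_zero ?_ (hne z (ball_subset_closedBall hz))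
    simp only [mirrorProd, ne_eq, Multiset.prod_eq_zero_iff, Multiset.mem_map, not_exists, not_and]
    intro ρ hρ e
    rw [div_eq_zero_iff] at e
    rcases e with e | e
    · exact (hden ρ hρ z (mem_ball_zero_iff.1 hz).le).ne' (by rw [e, norm_zero])
    · exact (mul_ne_zero two_ne_zero hr0.ne') (by exact_mod_cast e)
  have hg0 : ‖f 0‖ ≤ ‖g 0‖ := by
    rw [hg]
    simp only
    rw [he 0, norm_mul, norm_mul, mirrorProd_zero (by positivity), norm_pow, norm_real,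
      Real.norm_of_nonneg (by positivity)]
    exact mul_le_mul_of_nonneg_right (FA.RiemannMangoldt.norm_rootProd_le (by positivity)
      fun ρ hρ => by rw [zero_sub, norm_neg]; linarith [hρr ρ hρ]) (norm_nonneg _)
  have hgb : ∀ z ∈ ball (0 : ℂ) r, ‖g z‖ ≤ B * ‖g 0‖ := by
    intro z hz
    refine (FA.DLVP.norm_le_of_sphere (Set.subset_univ _) (by positivity : (0 : ℝ) < 2 * r) hgd
      (C := B * ‖f 0‖) (fun v hv => ?_) (closedBall_subset_closedBall (by linarith)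
        (ball_subset_closedBall hz))).trans (mul_le_mul_of_nonneg_left hg0 (by linarith))
    rw [hg]
    simp only
    rw [norm_mul, norm_mirrorProd (by positivity) (mem_sphere_zero_iff_norm.1 hv), ← norm_mul,
      ← he]
    exact hb v hv
  obtain ⟨l, hl, hlb⟩ := FA.DLVP.norm_log_le hr0 (hgd.mono (Set.subset_univ _)) hgne hB1 hgb
  have hxb : p ∈ ball (0 : ℂ) r := by
    rw [mem_ball_zero_iff, ← hxp]
    linarith
  -- `g x = g 0 exp (l x - l 0)`
  have hl0 : ‖l 0‖ ≤ 0 := (hlb 0 (mem_ball_self hr0)).trans (by simp)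
  have hexp : g p * cexp (-(l p)) = g 0 * cexp (-(l 0)) := by
    refine (isOpen_ball).is_const_of_deriv_eq_zero
      (convex_ball (0 : ℂ) r).isPreconnected (f := fun z => g z * cexp (-(l z)))
      (fun z hz => ?_) (fun z hz => ?_) hxb (mem_ball_self hr0)
    · exact (((hgd.differentiableAt univ_mem).mul
        (hl z hz).differentiableAt.neg.cexp)).differentiableWithinAt
    · have hd : HasDerivAt (fun z => g z * cexp (-(l z)))
          (deriv g z * cexp (-(l z)) + g z * (cexp (-(l z)) * -(deriv g z / g z))) z :=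
        (hgd.differentiableAt (x := z) univ_mem).hasDerivAt.fun_mul (hl z hz).fun_neg.cexp
      simp only [Pi.zero_apply]
      rw [hd.deriv]
      have := hgne z hz
      field_simp
      ring
  have hlx : ‖l p‖ ≤ ε / 2 := by
    refine (hlb p hxb).trans ?_
    rw [← hxp, div_le_iff₀ (by linarith)]
    have : 32 * (x + 1) * η = ε := by rw [hη]; field_simp
    have h2 : Real.log B * x ≤ 3 * η * r * x := mul_le_mul_of_nonneg_right hlB hx
    nlinarith
  have hgx : ‖g p‖ ≤ ‖g 0‖ * Real.exp (ε / 2) ∧ ‖g 0‖ * Real.exp (-(ε / 2)) ≤ ‖g p‖ := by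
    have h1 := congrArg (fun w : ℂ => ‖w‖) hexp
    rw [norm_le_zero_iff.1 hl0, neg_zero, Complex.exp_zero, mul_one] at h1
    simp only [norm_mul, Complex.norm_exp, neg_re] at h1
    rw [← h1]
    have hre := abs_le.1 ((abs_re_le_norm (l p)).trans hlx)
    constructor
    · rw [mul_assoc, ← Real.exp_add]
      exact le_mul_of_one_le_right (norm_nonneg _) (Real.one_le_exp (by linarith))
    · rw [mul_assoc, ← Real.exp_add]
      exact mul_le_of_le_one_right (norm_nonneg _) (Real.exp_le_one_iff.2 (by linarith))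
  -- the exact identity
  obtain ⟨W, hW⟩ : ∃ W : ℂ → ℝ, W = fun ρ =>
      ((2 * r) ^ 2) / ‖((2 * r : ℝ) : ℂ) ^ 2 - conj ρ * p‖ := ⟨_, rfl⟩
  have hxn : ‖p‖ ≤ r := by linarith
  have hkey : ‖f p‖ * ‖g 0‖ = ‖f 0‖ * ‖g p‖ *
      ((Z.map fun ρ => ‖p - ρ‖ / ‖ρ‖).prod * (Z.map W).prod) := by
    have hprod : ∀ T : Multiset ℂ, (∀ ρ ∈ T, ρ ∈ Z) →
        ‖rootProd T p‖ * ‖mirrorProd (2 * r) T 0‖ = ‖rootProd T 0‖ * ‖mirrorProd (2 * r) T p‖ *
          ((T.map fun ρ => ‖p - ρ‖ / ‖ρ‖).prod * (T.map W).prod) := by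
      intro T
      induction T using Multiset.induction_on with
      | empty => simp [rootProd, mirrorProd]
      | cons ρ T ih =>
        intro hT
        have ih := ih fun a ha => hT a (Multiset.mem_cons_of_mem ha)
        have hρZ := hT ρ (Multiset.mem_cons_self ρ T)
        have h1 := (norm_pos_iff.2 (hρ0 ρ hρZ)).ne'
        have h2 := (hden ρ hρZ p hxn).ne'
        have hm : ∀ z, mirrorProd (2 * r) (ρ ::ₘ T) z =
            (((2 * r : ℝ) : ℂ) ^ 2 - conj ρ * z) / ((2 * r : ℝ) : ℂ) * mirrorProd (2 * r) T z :=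
          fun z => by simp [mirrorProd]
        have hc : ‖((2 * r : ℝ) : ℂ)‖ = 2 * r := by
          rw [norm_real, Real.norm_of_nonneg (by positivity)]
        rw [FA.RiemannMangoldt.rootProd_cons, FA.RiemannMangoldt.rootProd_cons, hm, hm,
          Multiset.map_cons, Multiset.map_cons, Multiset.prod_cons, Multiset.prod_cons,
          mul_zero, sub_zero, zero_sub]
        simp only [norm_mul, norm_div, norm_pow, norm_neg, hc]
        rw [show W ρ = (2 * r) ^ 2 / ‖((2 * r : ℝ) : ℂ) ^ 2 - conj ρ * p‖ by rw [hW]]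
        generalize ‖((2 * r : ℝ) : ℂ) ^ 2 - conj ρ * p‖ = d at h2 ⊢
        generalize ‖p - ρ‖ = a
        generalize ‖ρ‖ = b at h1 ⊢
        field_simp
        linear_combination a * ih
    have h1 := hprod Z fun _ h => h
    rw [he p, he 0, hg]
    simp only [norm_mul]
    linear_combination (‖h p‖ * ‖h 0‖) * h1
  have hW0 : ∀ ρ ∈ Z, 0 < W ρ := fun ρ hρ => by
    rw [hW]
    exact div_pos (by positivity) (hden ρ hρ p hxn)
  have hWu : (Z.map W).prod ≤ Real.exp (ε / 2) ∧ Real.exp (-(ε / 2)) ≤ (Z.map W).prod := by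
    obtain ⟨u, hu⟩ : ∃ u, u = x / (2 * r) := ⟨_, rfl⟩
    have hone : ∀ ρ ∈ Z, W ρ ≤ Real.exp u ∧ Real.exp (-u) ≤ W ρ := by
      intro ρ hρ
      have hd := hden ρ hρ p hxn
      have hn : ‖conj ρ * p‖ ≤ r * x := by
        rw [norm_mul, RCLike.norm_conj, ← hxp]
        exact mul_le_mul_of_nonneg_right (hρr ρ hρ) hx
      have hsq : ‖((2 * r : ℝ) : ℂ) ^ 2‖ = 4 * r ^ 2 := by
        rw [norm_pow, norm_real, Real.norm_of_nonneg (by positivity)]; ring
      have hlo : 4 * r ^ 2 - r * x ≤ ‖((2 * r : ℝ) : ℂ) ^ 2 - conj ρ * p‖ := by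
        linarith [norm_sub_norm_le (((2 * r : ℝ) : ℂ) ^ 2) (conj ρ * p)]
      have hhi : ‖((2 * r : ℝ) : ℂ) ^ 2 - conj ρ * p‖ ≤ 4 * r ^ 2 + r * x := by
        linarith [norm_sub_le (((2 * r : ℝ) : ℂ) ^ 2) (conj ρ * p)]
      have hu4 : r * x = 2 * r ^ 2 * u := by rw [hu]; field_simp
      have hu1 : u ≤ 1 := by rw [hu, div_le_one (by positivity)]; linarith
      have hu0 : 0 ≤ u := by rw [hu]; positivity
      rw [hW]
      simp only
      constructor
      · rw [div_le_iff₀ hd]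
        refine le_trans ?_ (mul_le_mul (Real.add_one_le_exp u) hlo (by nlinarith)
          (Real.exp_pos _).le)
        rw [hu4]
        nlinarith [mul_nonneg (mul_nonneg hu0 (by linarith : 0 ≤ 1 - u)) (sq_nonneg r)]
      · rw [le_div_iff₀ hd, Real.exp_neg, inv_mul_le_iff₀ (Real.exp_pos u)]
        refine le_trans hhi ?_
        rw [hu4]
        nlinarith [mul_le_mul_of_nonneg_right (Real.add_one_le_exp u) (sq_nonneg r)]
    have hku : (k : ℝ) * u ≤ ε / 2 := by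
      rw [hu, ← mul_div_assoc, div_le_iff₀ (by positivity)]
      have : 32 * (x + 1) * η = ε := by rw [hη]; field_simp
      nlinarith [mul_le_mul_of_nonneg_right hkl hx]
    constructor
    · calc (Z.map W).prod ≤ (Z.map fun _ => Real.exp u).prod :=
            Multiset.prod_map_le_prod_map₀ _ _ (fun ρ hρ => (hW0 ρ hρ).le)
              fun ρ hρ => (hone ρ hρ).1
        _ ≤ Real.exp (ε / 2) := by
            rw [Multiset.map_const', Multiset.prod_replicate, ← hkdef, ← Real.exp_nat_mul]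
            exact Real.exp_le_exp.2 hku
    · calc Real.exp (-(ε / 2)) ≤ (Z.map fun _ => Real.exp (-u)).prod := by
            rw [Multiset.map_const', Multiset.prod_replicate, ← hkdef, ← Real.exp_nat_mul]
            exact Real.exp_le_exp.2 (by linarith)
        _ ≤ (Z.map W).prod :=
            Multiset.prod_map_le_prod_map₀ _ _ (fun ρ _ => (Real.exp_pos _).le)
              fun ρ hρ => (hone ρ hρ).2
  have hP : 0 ≤ (Z.map fun ρ => ‖p - ρ‖ / ‖ρ‖).prod :=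
    Multiset.prod_nonneg fun a ha => by
      obtain ⟨ρ, -, rfl⟩ := Multiset.mem_map.1 ha; positivity
  have hg0p : 0 < ‖g 0‖ := hf0.trans_le hg0
  have hsplit : Real.exp ε = Real.exp (ε / 2) * Real.exp (ε / 2) := by
    rw [← Real.exp_add]; ring_nf
  have hsplit' : Real.exp (-ε) = Real.exp (-(ε / 2)) * Real.exp (-(ε / 2)) := by
    rw [← Real.exp_add]; ring_nf
  constructor
  · refine le_of_mul_le_mul_right ?_ hg0p
    rw [hkey, hsplit]
    calc _ ≤ ‖f 0‖ * (‖g 0‖ * Real.exp (ε / 2)) *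
          ((Z.map fun ρ => ‖p - ρ‖ / ‖ρ‖).prod * Real.exp (ε / 2)) :=
            mul_le_mul (mul_le_mul_of_nonneg_left hgx.1 (norm_nonneg _))
              (mul_le_mul_of_nonneg_left hWu.1 hP)
              (mul_nonneg hP ((Real.exp_pos _).le.trans hWu.2)) (by positivity)
      _ = _ := by ring
  · refine le_of_mul_le_mul_right ?_ hg0p
    rw [hkey, hsplit']
    calc _ = ‖f 0‖ * (‖g 0‖ * Real.exp (-(ε / 2))) *
          ((Z.map fun ρ => ‖p - ρ‖ / ‖ρ‖).prod * Real.exp (-(ε / 2))) := by ring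
      _ ≤ _ := mul_le_mul (mul_le_mul_of_nonneg_left hgx.2 (norm_nonneg _))
            (mul_le_mul_of_nonneg_left hWu.2 hP) (mul_nonneg hP (Real.exp_pos _).le)
            (by positivity)

/-- The comparison at a point `x ≥ 0`. -/
theorem eventually_product_bounds {f : ℂ → ℂ} (hf : Differentiable ℂ f) (h0 : f 0 ≠ 0)
    (hgr : ∀ η : ℝ, 0 < η → ∃ G : ℝ, ∀ z : ℂ, ‖f z‖ ≤ Real.exp (η * ‖z‖ + G))
    {x ε : ℝ} (hx : 0 ≤ x) (hε : 0 < ε) :
    ∀ᶠ r : ℝ in atTop, ∃ Z : Multiset ℂ, (∀ ρ ∈ Z, ‖ρ‖ ≤ r ∧ ρ ≠ 0 ∧ f ρ = 0) ∧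
      (∀ z : ℂ, ‖z‖ ≤ r → analyticOrderNatAt f z = Z.count z) ∧
      ‖f x‖ ≤ ‖f 0‖ * (Z.map fun ρ => 1 + x / ‖ρ‖).prod * Real.exp ε ∧
      ‖f 0‖ * (Z.map fun ρ => ‖(x : ℂ) - ρ‖ / ‖ρ‖).prod * Real.exp (-ε) ≤ ‖f x‖ := by
  filter_upwards [eventually_product_exact hf h0 hgr (x : ℂ) hε] with r ⟨Z, hZ, hord, hup, hlow⟩
  refine ⟨Z, hZ, hord, hup.trans (mul_le_mul_of_nonneg_right (mul_le_mul_of_nonneg_left ?_
    (norm_nonneg _)) (Real.exp_pos _).le), hlow⟩
  refine Multiset.prod_map_le_prod_map₀ _ _ (fun ρ _ => by positivity) fun ρ hρ => ?_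
  have := norm_pos_iff.2 (hZ ρ hρ).2.1
  rw [div_le_iff₀ this, add_mul, div_mul_cancel₀ _ this.ne', one_mul, add_comm]
  exact (norm_sub_le _ _).trans (by rw [norm_real, Real.norm_of_nonneg hx, add_comm])

end FA.PrimeRaceLittlewood

end
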