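import Fermat.Agent.PrimeRaceLittlewood.Criterion
import Fermat.Agent.PrimeRace.Theta

/-!
# The race of `θ` is not bounded on either side by a multiple of `√n`

A bound `e (θ (n; 4, 3) - θ (n; 4, 1)) ≤ C √n` for large `n` gives a nonnegative series on
`re z > 1/2` with the limits `C - e` at `1/2` and `-e m / ρ` at the zeros.
-/

set_option autoImplicit false

noncomputable section

namespace FA.PrimeRaceLittlewood

open Complex Filter Topology Set
open FA.MertensOmega (onLine onLine_re onLine_im onLine_ne_zero onLine_zero)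
open FA.LiouvilleOmega (IsNonnegSeries)
open FA.PrimeRace (lChi raceReg gapTail gapHead gapCoeff gapTail_nonneg lSeriesHasSum_gapTail
  differentiable_gapHead thetaRace thetaDefect hasSum_thetaRace differentiableAt_thetaDefect
  differentiableAt_raceReg zeta₁_two_mul_ne_zero two_mul_sub_ne_zero lChi_ne_zero_of_one_sided)
open scoped ComplexOrder

/-- The value of the residue in `tendsto_raceReg_pole`. -/
def poleVal (w : ℝ) : ℂ := if w = 0 then (1 / 2 : ℂ) else (mult w : ℂ)

theorem add_half_ne_one {z : ℂ} (hz : 1 / 2 < z.re) : z + 1 / 2 ≠ 1 := fun h => by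
  have := congrArg Complex.re h
  simp at this
  linarith

/-- The series `C ζ (z + 1/2) - e Φ z` less the head, as a series with nonnegative coefficients. -/
theorem isNonnegSeries_gap {W : ℕ → ℝ} {Φ : ℂ → ℂ} {C e : ℝ} {N : ℕ} (hN1 : 1 ≤ N)
    (hN : ∀ n, N ≤ n → e * W n ≤ C * (n : ℝ) ^ (1 / 2 : ℝ))
    (h : ∀ z : ℂ, 1 / 2 < z.re →
      HasSum (fun n : ℕ => (W n : ℂ) * (n : ℂ) ^ (-(z + 1))) (Φ z)) :
    IsNonnegSeries (fun n => (gapTail (fun n => e * W n) C N n).re)
      fun z => (C : ℂ) * riemannZeta (z + 1 / 2) - (e : ℂ) * Φ z -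
        gapHead (fun n => e * W n) C N z := by
  have hb : ∀ n, 0 ≤ gapTail (fun n => e * W n) C N n := gapTail_nonneg hN
  refine ⟨fun n => (Complex.le_def.1 (hb n)).1, fun z hz => ?_⟩
  have hs : HasSum (fun n : ℕ => ((e * W n : ℝ) : ℂ) * (n : ℂ) ^ (-(z + 1)))
      ((e : ℂ) * Φ z) := ((h z hz).mul_left (e : ℂ)).congr_fun fun n => by
    push_cast
    ring
  refine (lSeriesHasSum_gapTail (C := C) (N := N) hz hs).congr_fun fun n => ?_
  have hre : ((gapTail (fun n => e * W n) C N n).re : ℂ) = gapTail (fun n => e * W n) C N n :=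
    Complex.ext (by simp) (by simpa using (Complex.le_def.1 (hb n)).2)
  rcases Nat.eq_zero_or_pos n with rfl | hn
  · simp [gapTail, FA.Signs.removed, show 0 < N from hN1]
  · rw [LSeries.term_of_ne_zero hn.ne', hre, cpow_def_of_ne_zero (Nat.cast_ne_zero.2 hn.ne'),
      ← Complex.natCast_log, div_eq_mul_inv, ← Complex.exp_neg]
    ring_nf

/-- Its limits along the horizontals at the line. -/
theorem tendsto_gap {W : ℕ → ℝ} {Φ : ℂ → ℂ} (C e : ℝ) (N : ℕ)
    (hΦ : ∀ w : ℝ,
      Tendsto (fun δ : ℝ => (δ : ℂ) * Φ (onLine w + δ)) (𝓝[>] 0) (𝓝 (poleVal w / onLine w)))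
    (w : ℝ) : Tendsto (fun δ : ℝ => (δ : ℂ) * ((C : ℂ) * riemannZeta (onLine w + δ + 1 / 2) -
        (e : ℂ) * Φ (onLine w + δ) - gapHead (fun n => e * W n) C N (onLine w + δ))) (𝓝[>] 0)
      (𝓝 (if w = 0 then ((C - e : ℝ) : ℂ) else -((e : ℂ) * mult w) / onLine w)) := by
  have hz : Tendsto (fun δ : ℝ => (δ : ℂ)) (𝓝[>] 0) (𝓝 ((0 : ℝ) : ℂ)) :=
    (Complex.continuous_ofReal.tendsto _).mono_left nhdsWithin_le_nhds
  have hζ : Tendsto (fun δ : ℝ => (δ : ℂ) * riemannZeta (onLine w + δ + 1 / 2)) (𝓝[>] 0)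
      (𝓝 (if w = 0 then 1 else 0)) := by
    have hadd := (tendsto_add_ofReal (onLine w)).add_const (1 / 2 : ℂ)
    split_ifs with hw
    · have h1 := (differentiable_riemannZeta₁.continuous.tendsto _).comp hadd
      rw [hw, onLine_zero, show (1 / 2 : ℂ) + 1 / 2 = 1 by norm_num, riemannZeta₁_one] at h1
      refine h1.congr' ?_
      filter_upwards [self_mem_nhdsWithin] with δ (hδ : 0 < δ)
      have hne : onLine w + δ + 1 / 2 ≠ 1 := add_half_ne_one (by simp [onLine_re, hδ])
      rw [hw, onLine_zero] at hne ⊢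
      rw [Function.comp_apply, riemannZeta_eq_inv_sub_mul hne,
        show (1 / 2 : ℂ) + δ + 1 / 2 - 1 = δ by ring, ← mul_assoc,
        mul_inv_cancel₀ (ofReal_ne_zero.2 hδ.ne'), one_mul]
    · have hne : onLine w + 1 / 2 ≠ 1 := fun h => hw (by
        simpa [onLine] using congrArg Complex.im h)
      simpa using hz.mul ((differentiableAt_riemannZeta hne).continuousAt.tendsto.comp hadd)
  have hh : Tendsto (fun δ : ℝ => (δ : ℂ) * gapHead (fun n => e * W n) C N (onLine w + δ))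
      (𝓝[>] 0) (𝓝 0) := by
    simpa using hz.mul ((differentiable_gapHead.continuous.tendsto _).comp
      (tendsto_add_ofReal (onLine w)))
  have hall := ((hζ.const_mul (C : ℂ)).sub ((hΦ w).const_mul (e : ℂ))).sub hh
  have e' : (C : ℂ) * (if w = 0 then 1 else 0) - (e : ℂ) * (poleVal w / onLine w) - 0 =
      if w = 0 then ((C - e : ℝ) : ℂ) else -((e : ℂ) * mult w) / onLine w := by
    rw [poleVal]
    split_ifs with hw
    · rw [hw, onLine_zero]
      push_cast
      ring
    · ring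
  rw [e'] at hall
  exact hall.congr fun δ => by ring

/-- A series with these two properties is impossible. -/
theorem false_of_gap {W : ℕ → ℝ} {Φ : ℂ → ℂ} {C e : ℝ} {N : ℕ} (he : |e| = 1) (hN1 : 1 ≤ N)
    (hN : ∀ n, N ≤ n → e * W n ≤ C * (n : ℝ) ^ (1 / 2 : ℝ))
    (hfree : ∀ z : ℂ, 1 / 2 < z.re → lChi z ≠ 0)
    (h : ∀ z : ℂ, 1 / 2 < z.re →
      HasSum (fun n : ℕ => (W n : ℂ) * (n : ℂ) ^ (-(z + 1))) (Φ z))
    (hΦ : ∀ w : ℝ, Tendsto (fun δ : ℝ => (δ : ℂ) * Φ (onLine w + δ)) (𝓝[>] 0)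
      (𝓝 (poleVal w / onLine w))) : False := by
  refine false_of_nonneg_series (isNonnegSeries_gap hN1 hN h) he hfree (C₀ := C - e) ?_ ?_
  · simpa using tendsto_gap (W := W) C e N hΦ 0
  · intro w hw
    have := tendsto_gap (W := W) C e N hΦ w
    rwa [if_neg hw] at this

theorem differentiableAt_race_pole (hfree : ∀ z : ℂ, 1 / 2 < z.re → lChi z ≠ 0) {z : ℂ}
    (hz : 1 / 2 < z.re) : DifferentiableAt ℂ (fun z => raceReg z + (2 * z - 1)⁻¹) z :=
  (differentiableAt_raceReg (by linarith) (zeta₁_two_mul_ne_zero hz.le) (hfree z hz)).add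
    (((differentiableAt_id.const_mul 2).sub_const 1).inv (two_mul_sub_ne_zero hz))

/-- **No one-sided bound `C √n` for the race of `θ`.** -/
theorem not_eventually_thetaRace_le {e : ℝ} (he : |e| = 1) (C : ℝ) :
    ¬ ∀ᶠ n : ℕ in atTop, e * thetaRace n ≤ C * √n := by
  intro h
  simp only [Real.sqrt_eq_rpow] at h
  have he0 : e ≠ 0 := fun h0 => by simp [h0] at he
  have hfree : ∀ z : ℂ, 1 / 2 < z.re → lChi z ≠ 0 := fun z hz =>
    lChi_ne_zero_of_one_sided le_rfl he0 h hz
  obtain ⟨M, hM⟩ := eventually_atTop.1 h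
  obtain ⟨D, hD⟩ : ∃ D : ℕ → ℝ, D = fun n => e * thetaRace n := ⟨_, rfl⟩
  obtain ⟨b, hb⟩ : ∃ b, b = gapTail D C (M + 1) := ⟨_, rfl⟩
  have hb0 : 0 ≤ b := hb ▸ gapTail_nonneg fun n hn => hD ▸ hM n (by omega)
  obtain ⟨Num, hNum⟩ : ∃ Num : ℂ → ℂ, Num = fun w =>
      (C : ℂ) * riemannZeta (w - 1 + 1 / 2) -
        (e : ℂ) * ((raceReg (w - 1) + (2 * (w - 1) - 1)⁻¹ + thetaDefect (w - 1)) / (w - 1)) -
        gapHead D C (M + 1) (w - 1) := ⟨_, rfl⟩
  have hser : ∀ w : ℂ, 2 < w.re → LSeriesHasSum b w (Num w) := by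
    intro w hw
    have hs : HasSum (fun n : ℕ => (D n : ℂ) * (n : ℂ) ^ (-(w - 1 + 1)))
        ((e : ℂ) * ((raceReg (w - 1) + (2 * (w - 1) - 1)⁻¹ + thetaDefect (w - 1)) / (w - 1))) :=
      ((hasSum_thetaRace (z := w - 1) (by simp; linarith)).mul_left (e : ℂ)).congr_fun fun n => by
        simp only [hD]
        push_cast
        ring
    have := lSeriesHasSum_gapTail (C := C) (N := M + 1) (z := w - 1) (by simp; linarith) hs
    rw [sub_add_cancel, ← hb] at this
    rwa [hNum]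
  have hNd : DifferentiableOn ℂ Num {w | (3 / 2 : ℝ) < w.re} := by
    intro w (hw : 3 / 2 < w.re)
    have hz : 1 / 2 < (w - 1).re := by simp; linarith
    have hs : DifferentiableAt ℂ (fun w : ℂ => w - 1) w := by fun_prop
    rw [hNum]
    refine DifferentiableAt.differentiableWithinAt ?_
    have d1 : DifferentiableAt ℂ (fun w : ℂ => riemannZeta (w - 1 + 1 / 2)) w :=
      DifferentiableAt.fun_comp' w (g := riemannZeta) (f := fun w : ℂ => w - 1 + 1 / 2)
        (differentiableAt_riemannZeta (add_half_ne_one hz)) (hs.add_const (1 / 2))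
    have d2 : DifferentiableAt ℂ (fun w : ℂ => raceReg (w - 1) + (2 * (w - 1) - 1)⁻¹) w :=
      DifferentiableAt.fun_comp' w (g := fun z => raceReg z + (2 * z - 1)⁻¹)
        (f := fun w : ℂ => w - 1) (differentiableAt_race_pole hfree hz) hs
    have d3 : DifferentiableAt ℂ (fun w : ℂ => thetaDefect (w - 1)) w :=
      DifferentiableAt.fun_comp' w (g := thetaDefect) (f := fun w : ℂ => w - 1)
        (differentiableAt_thetaDefect (by linarith)) hs
    have d4 : DifferentiableAt ℂ (fun w : ℂ => gapHead D C (M + 1) (w - 1)) w :=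
      DifferentiableAt.fun_comp' w (g := gapHead D C (M + 1)) (f := fun w : ℂ => w - 1)
        (differentiable_gapHead _) hs
    have hw0 : w - 1 ≠ 0 := fun h0 => by rw [h0] at hz; norm_num at hz
    exact ((d1.const_mul (C : ℂ)).fun_sub
      (((d2.fun_add d3).fun_div hs hw0).const_mul (e : ℂ))).fun_sub d4
  have hLan : ∀ w : ℂ, (3 / 2 : ℝ) < w.re → LSeriesHasSum b w (Num w) := by
    intro w hw
    obtain ⟨h1, h2⟩ := FA.OneSided.lSeriesSummable_of_nonneg hb0
      (fun w hw => (hser w hw).LSeriesSummable) (Num := Num) (Den := fun _ => 1)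
      (fun w hw => by rw [one_mul, (hser w hw).LSeries_eq]) hNd
      (differentiableOn_const 1) (fun _ _ => one_ne_zero) hw
    rw [one_mul] at h2
    exact h2 ▸ h1.LSeriesHasSum
  have hsum : ∀ z : ℂ, 1 / 2 < z.re →
      HasSum (fun n : ℕ => (thetaRace n : ℂ) * (n : ℂ) ^ (-(z + 1)))
        ((raceReg z + (2 * z - 1)⁻¹ + thetaDefect z) / z) := by
    intro z hz
    have h1 := hLan (z + 1) (by simp; linarith)
    have h2 : Summable fun n : ℕ => (D n : ℂ) * (n : ℂ) ^ (-(z + 1)) :=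
      FA.PrimeRace.summable_of_gapTail hz (hb ▸ h1.LSeriesSummable)
    have h3 := lSeriesHasSum_gapTail (C := C) (N := M + 1) hz h2.hasSum
    rw [← hb] at h3
    have h4 := h3.unique h1
    simp only [hNum, add_sub_cancel_right] at h4
    have h5 := h2.hasSum
    rw [show ∑' n : ℕ, (D n : ℂ) * (n : ℂ) ^ (-(z + 1)) =
      (e : ℂ) * ((raceReg z + (2 * z - 1)⁻¹ + thetaDefect z) / z) by linear_combination -h4] at h5
    have h6 := h5.mul_left (e : ℂ)⁻¹
    have he' : (e : ℂ) ≠ 0 := ofReal_ne_zero.2 he0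
    rw [← mul_assoc, inv_mul_cancel₀ he', one_mul] at h6
    refine h6.congr_fun fun n => ?_
    simp only [hD]
    push_cast
    field_simp
  refine false_of_gap he (Nat.le_add_left 1 M) (W := thetaRace) (C := C)
    (fun n hn => hM n (by omega)) hfree hsum fun w => ?_
  have hne := onLine_ne_zero w
  have hadd := tendsto_add_ofReal (onLine w)
  have hd : Tendsto (fun δ : ℝ => (δ : ℂ) * thetaDefect (onLine w + δ)) (𝓝[>] 0) (𝓝 0) := by
    have hz : Tendsto (fun δ : ℝ => (δ : ℂ)) (𝓝[>] 0) (𝓝 ((0 : ℝ) : ℂ)) :=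
      (Complex.continuous_ofReal.tendsto _).mono_left nhdsWithin_le_nhds
    simpa using hz.mul
      ((differentiableAt_thetaDefect (by rw [onLine_re]; norm_num)).continuousAt.tendsto.comp hadd)
  have h1 := ((tendsto_raceReg_pole w).add hd).div hadd hne
  rw [add_zero] at h1
  exact h1.congr fun δ => by rw [Pi.div_apply]; ring

end FA.PrimeRaceLittlewood

end
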